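import Fermat.Agent.HilbertSeventeen.Main

/-!
# Motzkin's polynomial

It is nowhere negative and is no sum of squares of polynomials: each summand would be determined
by its values on nine points.
-/

set_option autoImplicit false

noncomputable section

namespace Fermat.Agent.HilbertSeventeen

open MvPolynomial

/-- Motzkin's polynomial. -/
def motzkinPoly : MvPolynomial (Fin 2) ℝ :=
  X 0 ^ 4 * X 1 ^ 2 + X 0 ^ 2 * X 1 ^ 4 - 3 * X 0 ^ 2 * X 1 ^ 2 + 1

theorem eval_motzkinPoly (x : Fin 2 → ℝ) :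
    eval x motzkinPoly = x 0 ^ 4 * x 1 ^ 2 + x 0 ^ 2 * x 1 ^ 4 - 3 * x 0 ^ 2 * x 1 ^ 2 + 1 := by
  simp [motzkinPoly]

theorem motzkinPoly_nonneg (x : Fin 2 → ℝ) : 0 ≤ eval x motzkinPoly := by
  rw [eval_motzkinPoly]
  set a := x 0
  set b := x 1
  rcases eq_or_ne (a ^ 2 + b ^ 2) 0 with h | h
  · have ha : a = 0 := by nlinarith [sq_nonneg a, sq_nonneg b]
    simp [ha]
  have hpos : 0 < a ^ 2 + b ^ 2 := lt_of_le_of_ne (by positivity) h.symm
  have key : 0 ≤ (a ^ 4 * b ^ 2 + a ^ 2 * b ^ 4 - 3 * a ^ 2 * b ^ 2 + 1) * (a ^ 2 + b ^ 2) ^ 2 := by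
    rw [show (a ^ 4 * b ^ 2 + a ^ 2 * b ^ 4 - 3 * a ^ 2 * b ^ 2 + 1) * (a ^ 2 + b ^ 2) ^ 2 =
      (a ^ 2 - b ^ 2) ^ 2 + a ^ 2 * b ^ 2 * (a ^ 2 + b ^ 2 + 1) * (a ^ 2 + b ^ 2 - 2) ^ 2 by ring]
    positivity
  exact nonneg_of_mul_nonneg_left key (pow_pos hpos 2)

/-- Squares summing to degree at most `2 m` have degree at most `m`. -/
theorem natDegree_le_of_sum_sq {k : ℕ} (p : Fin k → Polynomial ℝ) {P : Polynomial ℝ}
    (h : ∑ i, p i * p i = P) {m : ℕ} (hP : P.natDegree ≤ 2 * m) (i : Fin k) :
    (p i).natDegree ≤ m := by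
  classical
  obtain ⟨j, -, hj⟩ := Finset.exists_max_image Finset.univ (fun i => (p i).natDegree)
    ⟨i, Finset.mem_univ i⟩
  refine (hj i (Finset.mem_univ i)).trans ?_
  by_contra! hm
  set D := (p j).natDegree
  have hsum : ∑ l, (p l).coeff D * (p l).coeff D = 0 := by
    rw [← Finset.sum_congr rfl fun l hl => Polynomial.coeff_mul_add_eq_of_natDegree_le
      (hj l hl) (hj l hl), ← Polynomial.finsetSum_coeff, h]
    exact Polynomial.coeff_eq_zero_of_natDegree_lt (by omega)
  have := (Finset.sum_eq_zero_iff_of_nonneg fun l _ => mul_self_nonneg _).1 hsum j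
    (Finset.mem_univ j)
  rw [mul_self_eq_zero, Polynomial.coeff_natDegree, Polynomial.leadingCoeff_eq_zero] at this
  simp [D, this] at hm

/-- Restriction to a coordinate line. -/
theorem eval_line (g : MvPolynomial (Fin 2) ℝ) (c : Fin 2 → Polynomial ℝ) (t : ℝ) :
    (eval₂Hom Polynomial.C c g).eval t = eval (fun i => (c i).eval t) g := by
  rw [← Polynomial.coe_evalRingHom, ← RingHom.comp_apply]
  refine DFunLike.congr_fun (ringHom_ext (fun b => ?_) fun i => ?_) g <;> simp

theorem eval_two_of_natDegree_le_two {p : Polynomial ℝ} (h : p.natDegree ≤ 2) :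
    p.eval 2 = p.eval (-1) - 3 * p.eval 0 + 3 * p.eval 1 := by
  simp only [Polynomial.eval_eq_sum_range' (Nat.lt_succ_of_le h), Finset.sum_range_succ,
    Finset.sum_range_zero]
  ring

/-- **Motzkin**: no sum of squares of polynomials. -/
theorem motzkinPoly_not_isSumSq : ¬ IsSumSq motzkinPoly := by
  intro h
  obtain ⟨k, g, hg⟩ := exists_fin_of_isSumSq h
  have hval : ∀ x, ∑ i, eval x (g i) * eval x (g i) = eval x motzkinPoly := fun x => by
    rw [hg, map_sum]; simp
  have hline : ∀ (c : Fin 2 → Polynomial ℝ) (m : ℕ) (i : Fin k),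
      (eval₂Hom Polynomial.C c motzkinPoly).natDegree ≤ 2 * m →
        (eval₂Hom Polynomial.C c (g i)).natDegree ≤ m := fun c m i hm =>
    natDegree_le_of_sum_sq (fun i => eval₂Hom Polynomial.C c (g i))
      (by rw [hg, map_sum]; simp only [map_mul]) hm i
  -- constant on the axes
  have hx : ∀ i t, eval ![t, 0] (g i) = eval ![0, 0] (g i) := fun i t => by
    have h0 := Polynomial.eq_C_of_natDegree_le_zero
      (hline ![Polynomial.X, 0] 0 i (by simp [motzkinPoly]))
    have e : ∀ s : ℝ, eval ![s, 0] (g i) =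
        (eval₂Hom Polynomial.C ![Polynomial.X, 0] (g i)).coeff 0 := fun s => by
      have := congrArg (Polynomial.eval s) h0
      rw [eval_line, Polynomial.eval_C] at this
      rw [← this]
      congr 2
      funext l; fin_cases l <;> simp
    rw [e, e]
  have hy : ∀ i t, eval ![0, t] (g i) = eval ![0, 0] (g i) := fun i t => by
    have h0 := Polynomial.eq_C_of_natDegree_le_zero
      (hline ![0, Polynomial.X] 0 i (by simp [motzkinPoly]))
    have e : ∀ s : ℝ, eval ![0, s] (g i) =
        (eval₂Hom Polynomial.C ![0, Polynomial.X] (g i)).coeff 0 := fun s => by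
      have := congrArg (Polynomial.eval s) h0
      rw [eval_line, Polynomial.eval_C] at this
      rw [← this]
      congr 2
      funext l; fin_cases l <;> simp
    rw [e, e]
  -- quadratic on the lines parallel to the axes
  have hdeg : ∀ a : ℝ, ∀ c : Fin 2 → Polynomial ℝ,
      (c = ![Polynomial.X, Polynomial.C a] ∨ c = ![Polynomial.C a, Polynomial.X]) →
        ∀ i, (eval₂Hom Polynomial.C c (g i)).natDegree ≤ 2 := fun a c hc i => by
    refine hline c 2 i ?_
    rcases hc with rfl | rfl <;>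
    · simp [motzkinPoly]
      compute_degree
  have hrow : ∀ i a, eval ![2, a] (g i) =
      eval ![-1, a] (g i) - 3 * eval ![0, a] (g i) + 3 * eval ![1, a] (g i) := fun i a => by
    have := eval_two_of_natDegree_le_two (hdeg a _ (Or.inl rfl) i)
    simp only [eval_line] at this
    have e : ∀ s : ℝ, (fun l => (![Polynomial.X, Polynomial.C a] l).eval s) = ![s, a] := fun s => by
      funext l; fin_cases l <;> simp
    rwa [e, e, e, e] at this
  have hcol : ∀ i a, eval ![a, 2] (g i) =
      eval ![a, -1] (g i) - 3 * eval ![a, 0] (g i) + 3 * eval ![a, 1] (g i) := fun i a => by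
    have := eval_two_of_natDegree_le_two (hdeg a _ (Or.inr rfl) i)
    simp only [eval_line] at this
    have e : ∀ s : ℝ, (fun l => (![Polynomial.C a, Polynomial.X] l).eval s) = ![a, s] := fun s => by
      funext l; fin_cases l <;> simp
    rwa [e, e, e, e] at this
  have hcorner : ∀ x, eval x motzkinPoly = 0 → ∀ i, eval x (g i) = 0 := fun x h0 i => by
    have := (Finset.sum_eq_zero_iff_of_nonneg fun l _ => mul_self_nonneg _).1
      ((hval x).trans h0) i (Finset.mem_univ i)
    exact mul_self_eq_zero.1 this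
  have hfar : ∀ i, eval ![2, 2] (g i) = -15 * eval ![0, 0] (g i) := fun i => by
    rw [hcol, hrow i (-1), hrow i 1, hx i 2, hy i (-1), hy i 1,
      hcorner ![-1, -1] (by simp [eval_motzkinPoly]; norm_num),
      hcorner ![1, -1] (by simp [eval_motzkinPoly]; norm_num),
      hcorner ![-1, 1] (by simp [eval_motzkinPoly]; norm_num),
      hcorner ![1, 1] (by simp [eval_motzkinPoly]; norm_num)]
    ring
  have h22 := hval ![2, 2]
  have h00 := hval ![0, 0]
  rw [Finset.sum_congr rfl fun i _ => by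
    rw [hfar i, show -15 * eval ![0, 0] (g i) * (-15 * eval ![0, 0] (g i)) =
      225 * (eval ![0, 0] (g i) * eval ![0, 0] (g i)) by ring], ← Finset.mul_sum, h00] at h22
  simp [eval_motzkinPoly] at h22
  norm_num at h22

/-- Motzkin's polynomial is a sum of squares of rational functions only. -/
theorem motzkin_separates :
    IsSumSq (algebraMap _ (FractionRing (MvPolynomial (Fin 2) ℝ)) motzkinPoly) ∧
      ¬ IsSumSq motzkinPoly :=
  ⟨(artin_seventeen motzkinPoly).2 motzkinPoly_nonneg, motzkinPoly_not_isSumSq⟩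

end Fermat.Agent.HilbertSeventeen
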