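import Fermat.Agent.HilbertSeventeen.SignTransfer

/-!
# The homomorphism theorem of Artin and Lang

Sign conditions on finitely many polynomials in any number of variables pass between fields with
the intermediate value property.
-/

set_option autoImplicit false

noncomputable section

namespace Fermat.Agent.HilbertSeventeen

open MvPolynomial

variable {B : Type*} [CommRing B]

theorem eval₂_finSuccEquiv {R : Type*} [CommRing R] (ι : B →+* R) {n : ℕ} (x : Fin (n + 1) → R)
    (p : MvPolynomial (Fin (n + 1)) B) :
    p.eval₂ ι x = Polynomial.eval₂ (eval₂Hom ι (x ∘ Fin.succ)) (x 0) (finSuccEquiv B n p) := by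
  have h : eval₂Hom ι x = (Polynomial.eval₂RingHom (eval₂Hom ι (x ∘ Fin.succ)) (x 0)).comp
      (finSuccEquiv B n :
        MvPolynomial (Fin (n + 1)) B →+* Polynomial (MvPolynomial (Fin n) B)) := by
    refine ringHom_ext (fun b => ?_) fun i => ?_
    · simp [finSuccEquiv_apply]
    · refine Fin.cases ?_ (fun j => ?_) i <;> simp [finSuccEquiv_apply]
  exact DFunLike.congr_fun h p

variable {R : Type*} [Field R] [LinearOrder R] [IsStrictOrderedRing R] [PolyIVT R]
variable {S : Type*} [Field S] [LinearOrder S] [IsStrictOrderedRing S] [PolyIVT S]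

/-- **Artin–Lang**: sign conditions realised in one field are realised in the other, when the
constants have the same signs. -/
theorem exists_point (ι : B →+* R) (κ : B →+* S)
    (h : ∀ b, SignType.sign (ι b) = SignType.sign (κ b)) :
    ∀ (n : ℕ) (P : Finset (MvPolynomial (Fin n) B)) (x : Fin n → R),
      ∃ y : Fin n → S, ∀ p ∈ P,
        SignType.sign (p.eval₂ ι x) = SignType.sign (p.eval₂ κ y)
  | 0, P, x => ⟨Fin.elim0, fun p _ => by
      obtain ⟨b, rfl⟩ := C_surjective (Fin 0) p
      rw [eval₂_C, eval₂_C, h]⟩
  | n + 1, P, x => by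
    classical
    obtain ⟨y, hy⟩ := exists_point ι κ h n
      (signConstants (P.image fun p => finSuccEquiv B n p)) (x ∘ Fin.succ)
    obtain ⟨u, hu⟩ := exists_sign_point (P.image fun p => finSuccEquiv B n p)
      (eval₂Hom ι (x ∘ Fin.succ)) (eval₂Hom κ y) hy (x 0)
    refine ⟨Fin.cons u y, fun p hp => ?_⟩
    rw [eval₂_finSuccEquiv, eval₂_finSuccEquiv, hu _ (Finset.mem_image_of_mem _ hp)]
    simp [Function.comp_def]

end Fermat.Agent.HilbertSeventeen
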