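import Mathlib

/-!
# A finite family of polynomials closed under the operations of sign determination

The operations are the derivative, deleting the leading term and the pseudo-remainder; all of
them lower the degree, so a finite family lies in a finite closed one.
-/

set_option autoImplicit false

noncomputable section

open Polynomial

namespace Fermat.Agent.HilbertSeventeen

variable {A : Type*} [CommRing A]

/-- Pseudo-division. -/
theorem exists_pseudo_remainder (q : A[X]) (hq : 0 < q.natDegree) : ∀ p : A[X],
    ∃ (m : ℕ) (h r : A[X]), r.natDegree < q.natDegree ∧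
      C q.leadingCoeff ^ m * p = h * q + r := by
  intro p
  induction hp : p.natDegree using Nat.strong_induction_on generalizing p with
  | _ d ih =>
  subst hp
  rcases lt_or_ge p.natDegree q.natDegree with h | h
  · exact ⟨0, 0, p, h, by simp⟩
  set p1 := C q.leadingCoeff * p - C p.leadingCoeff * X ^ (p.natDegree - q.natDegree) * q with hp1
  have hle : p1.natDegree ≤ p.natDegree := by
    refine (natDegree_sub_le _ _).trans (max_le (natDegree_C_mul_le _ _) ?_)
    refine natDegree_mul_le.trans ?_
    have := natDegree_C_mul_X_pow_le p.leadingCoeff (p.natDegree - q.natDegree)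
    omega
  have hc : p1.coeff p.natDegree = 0 := by
    rw [hp1, coeff_sub, coeff_C_mul, mul_assoc, coeff_C_mul, coeff_X_pow_mul',
      if_pos (Nat.sub_le _ _), Nat.sub_sub_self h]
    simp [mul_comm]
  have hlt : p1.natDegree < p.natDegree := by
    refine lt_of_le_of_ne hle fun e => ?_
    rw [← e, coeff_natDegree, leadingCoeff_eq_zero] at hc
    rw [hc, natDegree_zero] at e
    omega
  obtain ⟨m, h', r, hr, he⟩ := ih _ hlt p1 rfl
  refine ⟨m + 1, h' + C q.leadingCoeff ^ m * (C p.leadingCoeff * X ^ (p.natDegree - q.natDegree)),
    r, hr, ?_⟩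
  rw [hp1] at he
  linear_combination he

/-- A pseudo-remainder of `p` by `q`. -/
def pseudoRem (p q : A[X]) : A[X] :=
  if hq : 0 < q.natDegree then (exists_pseudo_remainder q hq p).choose_spec.choose_spec.choose
  else 0

theorem pseudoRem_spec (p : A[X]) {q : A[X]} (hq : 0 < q.natDegree) :
    ∃ (m : ℕ) (h : A[X]), (pseudoRem p q).natDegree < q.natDegree ∧
      C q.leadingCoeff ^ m * p = h * q + pseudoRem p q := by
  rw [pseudoRem, dif_pos hq]
  exact ⟨_, _, (exists_pseudo_remainder q hq p).choose_spec.choose_spec.choose_spec⟩

/-- Closure of the members of degree above `N` under the operations. -/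
def ClosedAbove (N : ℕ) (T : Finset A[X]) : Prop :=
  ∀ q ∈ T, N < q.natDegree → derivative q ∈ T ∧ q.eraseLead ∈ T ∧
    ∀ p ∈ T, q.natDegree ≤ p.natDegree → pseudoRem p q ∈ T

theorem exists_closed_of_closedAbove : ∀ (N : ℕ) (T : Finset A[X]), ClosedAbove N T →
    ∃ T', T ⊆ T' ∧ ClosedAbove 0 T'
  | 0, T, hT => ⟨T, subset_rfl, hT⟩
  | N + 1, T, hT => by
    classical
    set Q := T.filter fun q => q.natDegree = N + 1 with hQ
    set new := Q.image derivative ∪ Q.image eraseLead ∪
      Q.biUnion (fun q => T.image fun p => pseudoRem p q) with hnew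
    have hdeg : ∀ r ∈ new, r.natDegree ≤ N := by
      simp only [hnew, hQ, Finset.mem_union, Finset.mem_image, Finset.mem_filter,
        Finset.mem_biUnion]
      rintro r ((⟨q, ⟨-, hq⟩, rfl⟩ | ⟨q, ⟨-, hq⟩, rfl⟩) | ⟨q, ⟨-, hq⟩, p, -, rfl⟩)
      · exact (natDegree_derivative_le q).trans (by omega)
      · exact (eraseLead_natDegree_le q).trans (by omega)
      · obtain ⟨m, h, hlt, -⟩ := pseudoRem_spec p (q := q) (by omega)
        omega
    obtain ⟨T', hTT', hT'⟩ := exists_closed_of_closedAbove N (T ∪ new) (by
      intro q hq hd
      have hqT : q ∈ T := (Finset.mem_union.1 hq).resolve_right fun h => by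
        have := hdeg q h; omega
      have hp : ∀ p ∈ T ∪ new, q.natDegree ≤ p.natDegree → p ∈ T := fun p hp hle =>
        (Finset.mem_union.1 hp).resolve_right fun h => by have := hdeg p h; omega
      rcases eq_or_lt_of_le (Nat.succ_le_of_lt hd) with he | hlt
      · have hqQ : q ∈ Q := Finset.mem_filter.2 ⟨hqT, he.symm⟩
        refine ⟨?_, ?_, fun p hp' hle => ?_⟩ <;>
          refine Finset.mem_union_right _ ?_ <;> rw [hnew]
        · exact Finset.mem_union_left _ (Finset.mem_union_left _ (Finset.mem_image_of_mem _ hqQ))
        · exact Finset.mem_union_left _ (Finset.mem_union_right _ (Finset.mem_image_of_mem _ hqQ))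
        · exact Finset.mem_union_right _ (Finset.mem_biUnion.2
            ⟨q, hqQ, Finset.mem_image_of_mem _ (hp p hp' hle)⟩)
      · obtain ⟨h1, h2, h3⟩ := hT q hqT hlt
        exact ⟨Finset.mem_union_left _ h1, Finset.mem_union_left _ h2,
          fun p hp' hle => Finset.mem_union_left _ (h3 p (hp p hp' hle) hle)⟩)
    exact ⟨T', Finset.subset_union_left.trans hTT', hT'⟩

theorem exists_closed (S : Finset A[X]) : ∃ T, S ⊆ T ∧ ClosedAbove 0 T :=
  exists_closed_of_closedAbove (S.sup natDegree) S fun _q hq hd =>
    absurd (Finset.le_sup (f := natDegree) hq) hd.not_ge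

/-- A finite closed family containing `S`. -/
def signClosure (S : Finset A[X]) : Finset A[X] := (exists_closed S).choose

theorem subset_signClosure (S : Finset A[X]) : S ⊆ signClosure S :=
  (exists_closed S).choose_spec.1

theorem closedAbove_signClosure (S : Finset A[X]) : ClosedAbove 0 (signClosure S) :=
  (exists_closed S).choose_spec.2

/-- The constants whose signs determine the sign conditions of `S`. -/
def signConstants (S : Finset A[X]) : Finset A :=
  open Classical in (signClosure S).image leadingCoeff

end Fermat.Agent.HilbertSeventeen
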