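import Mathlib

/-!
# Fields with the intermediate value property for polynomials

A semireal field has a maximal semireal algebraic extension; it is ordered by its squares and every
polynomial that changes sign has a root between.
-/

set_option autoImplicit false

noncomputable section

open Polynomial

namespace Fermat.Agent.HilbertSeventeen

universe u v

/-- An ordered field in which a polynomial that changes sign has a root between. -/
class PolyIVT (R : Type*) [Field R] [LinearOrder R] [IsStrictOrderedRing R] : Prop where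
  exists_root : ∀ (p : R[X]) (a b : R), a < b → p.eval a * p.eval b < 0 →
    ∃ c, a < c ∧ c < b ∧ p.eval c = 0

instance polyIVT_real : PolyIVT ℝ where
  exists_root p a b hab h := by
    rcases mul_neg_iff.1 h with ⟨ha, hb⟩ | ⟨ha, hb⟩
    · obtain ⟨c, ⟨h1, h2⟩, h3⟩ := intermediate_value_Ioo' hab.le p.continuousOn ⟨hb, ha⟩
      exact ⟨c, h1, h2, h3⟩
    · obtain ⟨c, ⟨h1, h2⟩, h3⟩ := intermediate_value_Ioo hab.le p.continuousOn ⟨ha, hb⟩
      exact ⟨c, h1, h2, h3⟩

section ordered

variable {R : Type*} [Field R] [LinearOrder R] [IsStrictOrderedRing R] [PolyIVT R]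

theorem isSquare_of_nonneg {x : R} (hx : 0 ≤ x) : IsSquare x := by
  rcases hx.eq_or_lt with rfl | hx
  · exact IsSquare.zero
  obtain ⟨c, -, -, hc⟩ := PolyIVT.exists_root (X ^ 2 - C x : R[X]) 0 (1 + x) (by linarith) (by
    simp only [eval_sub, eval_pow, eval_X, eval_C]
    refine mul_neg_of_neg_of_pos (by linarith) (by nlinarith))
  exact ⟨c, by simp only [eval_sub, eval_pow, eval_X, eval_C] at hc; linear_combination -hc⟩

/-- A homomorphism from a field with the intermediate value property is strictly monotone. -/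
theorem strictMono_ringHom {S : Type*} [Field S] [LinearOrder S] [IsStrictOrderedRing S]
    (f : R →+* S) : StrictMono f := by
  intro a b hab
  obtain ⟨c, hc⟩ := isSquare_of_nonneg (sub_nonneg.2 hab.le)
  have hne : f (b - a) ≠ 0 := (_root_.map_ne_zero f).2 (sub_ne_zero.2 hab.ne')
  have h0 : 0 ≤ f (b - a) := by rw [hc, map_mul]; exact mul_self_nonneg _
  rw [map_sub] at hne h0
  exact lt_of_le_of_ne (sub_nonneg.1 h0) fun e => hne (sub_eq_zero.2 e.symm)

end ordered

section semireal

variable {E : Type*} [Field E]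

theorem isSumSq_div {x y : E} (hx : IsSumSq x) (hy : IsSumSq y) : IsSumSq (x / y) := by
  rcases eq_or_ne y 0 with rfl | h
  · rw [div_zero]; exact IsSumSq.zero
  rw [show x / y = x * y * (y⁻¹ * y⁻¹) by field_simp]
  exact (hx.mul hy).mul (IsSumSq.mul_self _)

theorem isSumSq_map {A B F : Type*} [Semiring A] [Semiring B] [FunLike F A B]
    [RingHomClass F A B] (f : F) {x : A} (h : IsSumSq x) : IsSumSq (f x) := by
  induction h with
  | zero => rw [map_zero]; exact IsSumSq.zero
  | sq_add a _ ih => rw [map_add, map_mul]; exact IsSumSq.sq_add _ ih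

theorem eq_zero_of_isSumSq_add [IsSemireal E] {x y : E} (hx : IsSumSq x) (hy : IsSumSq y)
    (h : x + y = 0) : x = 0 := by
  by_contra hne
  exact IsSemireal.one_add_ne_zero (isSumSq_div hy hx)
    (by rw [one_add_div hne, h, zero_div])

/-- A field that is not semireal consists of sums of squares, away from characteristic `2`. -/
theorem isSumSq_of_not_semireal (h2 : (2 : E) ≠ 0) (h : IsSumSq (-1 : E)) (x : E) :
    IsSumSq x := by
  rw [show x = (x + 1) / 2 * ((x + 1) / 2) + -1 * ((x - 1) / 2 * ((x - 1) / 2)) by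
    field_simp; ring]
  exact (IsSumSq.mul_self _).add (h.mul (IsSumSq.mul_self _))

theorem exists_fin_of_isSumSq {A : Type*} [CommRing A] {s : A} (hs : IsSumSq s) :
    ∃ (n : ℕ) (g : Fin n → A), s = ∑ i, g i * g i := by
  induction hs with
  | zero => exact ⟨0, ![], by simp⟩
  | sq_add a _ ih =>
    obtain ⟨n, g, hg⟩ := ih
    exact ⟨n + 1, Fin.cons a g, by rw [Fin.sum_univ_succ, hg]; simp⟩

theorem exists_poly_of_isSumSq_neg_one {q : E[X]} (hq : q.Monic) (h1 : q ≠ 1)
    (h : IsSumSq (-1 : AdjoinRoot q)) :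
    ∃ (n : ℕ) (g : Fin n → E[X]), (∀ i, (g i).natDegree < q.natDegree) ∧
      q ∣ 1 + ∑ i, g i * g i := by
  obtain ⟨n, g, hg⟩ := exists_fin_of_isSumSq h
  choose G hG using fun i => AdjoinRoot.mk_surjective (g i)
  refine ⟨n, fun i => G i %ₘ q, fun i => natDegree_modByMonic_lt _ hq h1, ?_⟩
  have hmod : ∀ i, AdjoinRoot.mk q (G i %ₘ q) = g i := fun i => by
    rw [← hG, AdjoinRoot.mk_eq_mk]
    exact ⟨-(G i /ₘ q), by linear_combination modByMonic_add_div (G i) q⟩
  rw [← AdjoinRoot.mk_eq_zero, map_add, map_one, map_sum]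
  simp only [map_mul, hmod, ← hg]
  ring

theorem isSumSq_coeff_zero {n : ℕ} (g : Fin n → E[X]) :
    IsSumSq ((∑ i, g i * g i).coeff 0) := by
  rw [finsetSum_coeff]
  simp only [mul_coeff_zero]
  exact IsSumSq.sum_mul_self _ _

/-- If adjoining `√a` gives no semireal ring, `-1` is `A + a B`. -/
theorem exists_neg_one_eq {a : E}
    (h : IsSumSq (-1 : AdjoinRoot (X ^ 2 - C a))) :
    ∃ A B : E, IsSumSq A ∧ IsSumSq B ∧ -1 = A + a * B := by
  have hm : (X ^ 2 - C a : E[X]).Monic := monic_X_pow_sub_C a two_ne_zero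
  have hd : (X ^ 2 - C a : E[X]).natDegree = 2 := natDegree_X_pow_sub_C
  obtain ⟨n, g, hg, k, hk⟩ := exists_poly_of_isSumSq_neg_one hm
    (fun e => by simp [e] at hd) h
  have hg' : ∀ i, g i = C ((g i).coeff 1) * X + C ((g i).coeff 0) := fun i =>
    eq_X_add_C_of_natDegree_le_one (by have := hg i; omega)
  have hG : (∑ i, g i * g i).natDegree ≤ 2 := natDegree_sum_le_of_forall_le _ _ fun i _ => by
    refine natDegree_mul_le.trans ?_
    have := hg i; omega
  obtain ⟨c, rfl⟩ : ∃ c, k = C c := by
    refine ⟨k.coeff 0, eq_C_of_natDegree_le_zero ?_⟩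
    rcases eq_or_ne k 0 with rfl | hk0
    · simp
    have := congrArg natDegree hk
    rw [natDegree_mul hm.ne_zero hk0, hd] at this
    have h1 : (1 + ∑ i, g i * g i).natDegree ≤ 2 :=
      (natDegree_add_le _ _).trans (max_le (by simp) hG)
    omega
  have h0 := congrArg (fun p : E[X] => p.coeff 0) hk
  have h2 := congrArg (fun p : E[X] => p.coeff 2) hk
  simp [coeff_one, coeff_X_pow] at h0 h2
  refine ⟨(∑ i, g i * g i).coeff 0, c, isSumSq_coeff_zero g, ?_, ?_⟩
  · rw [← h2]
    refine IsSumSq.sum fun i _ => ?_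
    rw [show 2 = 1 + 1 from rfl, coeff_mul_add_eq_of_natDegree_le (by have := hg i; omega)
      (by have := hg i; omega)]
    exact IsSumSq.mul_self _
  · rw [finsetSum_coeff]
    simp only [mul_coeff_zero]
    linear_combination -h0

variable [IsSemireal E]

theorem isSquare_or_neg_of_forall
    (hE : ∀ a : E, ¬ IsSquare a → IsSumSq (-1 : AdjoinRoot (X ^ 2 - C a))) (a : E) :
    IsSquare a ∨ IsSquare (-a) := by
  by_contra! h
  obtain ⟨A, B, hA, hB, e⟩ := exists_neg_one_eq (hE a h.1)
  obtain ⟨A', B', hA', hB', e'⟩ := exists_neg_one_eq (hE (-a) h.2)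
  have hB0 : B = 0 := eq_zero_of_isSumSq_add hB
    ((hB'.add (hA.mul hB')).add (hA'.mul hB)) (by linear_combination -B' * e - B * e')
  exact IsSemireal.one_add_ne_zero hA (by rw [hB0] at e; linear_combination -e)

/-- The squares as a cone, when a square or its negative is a square. -/
def squaresCone (hsq : ∀ a : E, IsSquare a ∨ IsSquare (-a)) : RingCone E where
  carrier := {x | IsSquare x}
  mul_mem' ha hb := ha.mul hb
  one_mem' := IsSquare.one
  add_mem' := fun {x y} hx hy => (hsq (x + y)).elim id fun hn => by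
    show IsSquare (x + y)
    rw [eq_zero_of_isSumSq_add ((IsSquare.isSumSq hx).add (IsSquare.isSumSq hy))
      (IsSquare.isSumSq hn) (add_neg_cancel _)]
    exact IsSquare.zero
  zero_mem' := IsSquare.zero
  eq_zero_of_mem_of_neg_mem' := fun ha hna =>
    eq_zero_of_isSumSq_add (IsSquare.isSumSq ha) (IsSquare.isSumSq hna) (add_neg_cancel _)

theorem hasMemOrNegMem_squaresCone (hsq : ∀ a : E, IsSquare a ∨ IsSquare (-a)) :
    HasMemOrNegMem (squaresCone hsq) := ⟨hsq⟩

end semireal

/-- An ordered field without semireal simple extensions has the intermediate value property. -/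
theorem polyIVT_of_forall {E : Type*} [Field E] [LinearOrder E] [IsStrictOrderedRing E]
    (hE : ∀ q : E[X], q.Monic → Irreducible q → 2 ≤ q.natDegree →
      IsSumSq (-1 : AdjoinRoot q)) : PolyIVT E where
  exists_root := by
    intro p
    induction hd : p.natDegree using Nat.strong_induction_on generalizing p with
    | _ d ih =>
    intro a b hab hp
    rcases Nat.eq_zero_or_pos d with rfl | hd0
    · rw [eq_C_of_natDegree_eq_zero hd, eval_C, eval_C] at hp
      exact absurd hp (mul_self_nonneg _).not_gt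
    by_cases hirr : Irreducible p
    · obtain hd1 | hd2 : d = 1 ∨ 2 ≤ d := by omega
      · obtain ⟨u, hu, v, rfl⟩ := natDegree_eq_one.1 (hd.trans hd1)
        simp only [eval_add, eval_mul, eval_C, eval_X] at hp ⊢
        refine ⟨-v / u, ?_, ?_, by field_simp; ring⟩ <;>
        · rcases mul_neg_iff.1 hp with ⟨h1, h2⟩ | ⟨h1, h2⟩
          · have : u < 0 := by nlinarith
            first
              | rw [lt_div_iff_of_neg this]; linarith
              | rw [div_lt_iff_of_neg this]; linarith
          · have : 0 < u := by nlinarith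
            first
              | rw [lt_div_iff₀ this]; linarith
              | rw [div_lt_iff₀ this]; linarith
      set q := p * C p.leadingCoeff⁻¹ with hq
      have hlc : p.leadingCoeff ≠ 0 := leadingCoeff_ne_zero.2 hirr.ne_zero
      have hm : q.Monic := monic_mul_leadingCoeff_inv hirr.ne_zero
      have hqd : q.natDegree = d := by rw [hq, natDegree_mul_C (inv_ne_zero hlc), hd]
      have hqi : Irreducible q :=
        (irreducible_mul_isUnit (isUnit_C.2 (isUnit_iff_ne_zero.2 (inv_ne_zero hlc)))).2 hirr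
      obtain ⟨n, g, hg, h, hh⟩ := exists_poly_of_isSumSq_neg_one hm
        (fun e => by rw [e, natDegree_one] at hqd; omega) (hE q hm hqi (hqd ▸ hd2))
      have hpos : ∀ x, 0 < q.eval x * h.eval x := fun x => by
        rw [← eval_mul, ← hh, eval_add, eval_one, eval_finsetSum]
        have : 0 ≤ ∑ i, (g i * g i).eval x := Finset.sum_nonneg fun i _ => by
          rw [eval_mul]; exact mul_self_nonneg _
        linarith
      have hneg : h.eval a * h.eval b < 0 := by
        have h1 : q.eval a * q.eval b < 0 := by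
          simp only [hq, eval_mul, eval_C]
          rw [
            show p.eval a * p.leadingCoeff⁻¹ * (p.eval b * p.leadingCoeff⁻¹) =
              p.eval a * p.eval b * (p.leadingCoeff⁻¹ * p.leadingCoeff⁻¹) by ring]
          exact mul_neg_of_neg_of_pos hp (mul_self_pos.2 (inv_ne_zero hlc))
        nlinarith [mul_pos (hpos a) (hpos b)]
      have hh0 : h ≠ 0 := fun e => by simp [e] at hneg
      have hhd : h.natDegree < d := by
        have e := congrArg natDegree hh
        rw [natDegree_mul hm.ne_zero hh0, hqd] at e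
        have h1 : (1 + ∑ i, g i * g i).natDegree ≤ 2 * d - 1 := by
          refine (natDegree_add_le _ _).trans (max_le (by simp)
            (natDegree_sum_le_of_forall_le _ _ fun i _ => natDegree_mul_le.trans ?_))
          have := hg i
          rw [hqd] at this; omega
        omega
      obtain ⟨c, -, -, hc⟩ := ih _ hhd h rfl a b hab hneg
      exact absurd (hpos c) (by rw [hc, mul_zero]; exact lt_irrefl _)
    · have hp0 : p ≠ 0 := fun e => by simp [e] at hd; omega
      have hu : ¬ IsUnit p := fun e => by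
        rw [natDegree_eq_zero_of_isUnit e] at hd; omega
      obtain ⟨f, g, rfl, hf, hg⟩ : ∃ f g, p = f * g ∧ ¬ IsUnit f ∧ ¬ IsUnit g := by
        simpa [irreducible_iff, hu] using hirr
      have hf0 : f ≠ 0 := left_ne_zero_of_mul hp0
      have hg0 : g ≠ 0 := right_ne_zero_of_mul hp0
      have hfd : 0 < f.natDegree := natDegree_pos_iff_degree_pos.2
        (degree_pos_of_ne_zero_of_nonunit hf0 hf)
      have hgd : 0 < g.natDegree := natDegree_pos_iff_degree_pos.2
        (degree_pos_of_ne_zero_of_nonunit hg0 hg)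
      rw [natDegree_mul hf0 hg0] at hd
      simp only [eval_mul] at hp ⊢
      rw [mul_mul_mul_comm] at hp
      rcases mul_neg_iff.1 hp with ⟨-, h⟩ | ⟨h, -⟩
      · obtain ⟨c, h1, h2, h3⟩ := ih _ (by omega) g rfl a b hab h
        exact ⟨c, h1, h2, by rw [h3, mul_zero]⟩
      · obtain ⟨c, h1, h2, h3⟩ := ih _ (by omega) f rfl a b hab h
        exact ⟨c, h1, h2, by rw [h3, zero_mul]⟩

/-! ### Existence -/

section existence

variable {L A : Type*} [Field L] [Field A] [Algebra L A]

theorem exists_isSumSq_of_iSup {κ : Type*} [Nonempty κ] {G : κ → IntermediateField L A}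
    (hG : Directed (· ≤ ·) G) {s : (⨆ i, G i : IntermediateField L A)} (hs : IsSumSq s) :
    ∃ i, ∃ t : G i, IsSumSq t ∧ (t : A) = s := by
  induction hs with
  | zero => exact ⟨Classical.arbitrary κ, 0, IsSumSq.zero, rfl⟩
  | @sq_add a S _ ih =>
    obtain ⟨i, t, ht, e⟩ := ih
    obtain ⟨j, hj⟩ : ∃ j, (a : A) ∈ G j :=
      Set.mem_iUnion.1 (IntermediateField.coe_iSup_of_directed hG ▸ a.2)
    obtain ⟨k, hik, hjk⟩ := hG i j
    refine ⟨k, ⟨a, hjk hj⟩ * ⟨a, hjk hj⟩ + IntermediateField.inclusion hik t,
      IsSumSq.sq_add _ (isSumSq_map (IntermediateField.inclusion hik) ht), ?_⟩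
    simp [e]

end existence

/-- **A semireal field lies in an ordered field with the intermediate value property.** -/
theorem exists_polyIVT_extension (L : Type u) [Field L] [IsSemireal L] :
    ∃ (R : Type u) (_ : Field R) (_ : LinearOrder R) (_ : IsStrictOrderedRing R) (_ : PolyIVT R),
      Nonempty (L →+* R) := by
  classical
  let A := AlgebraicClosure L
  let s : Set (IntermediateField L A) := {E | ¬ IsSumSq (-1 : E)}
  have hbot : (⊥ : IntermediateField L A) ∈ s := fun h => IsSemireal.not_isSumSq_neg_one L (by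
    simpa using isSumSq_map (IntermediateField.botEquiv L A).toAlgHom h)
  obtain ⟨E, hE⟩ := zorn_le₀ s fun c hc hch => by
    rcases c.eq_empty_or_nonempty with rfl | hne
    · exact ⟨⊥, hbot, fun _ h => h.elim⟩
    have : Nonempty c := hne.to_subtype
    refine ⟨⨆ E : c, (E : IntermediateField L A), fun hk => ?_,
      fun E hE => le_iSup (fun E : c => (E : IntermediateField L A)) ⟨E, hE⟩⟩
    obtain ⟨i, t, ht, e⟩ := exists_isSumSq_of_iSup
      (G := fun E : c => (E : IntermediateField L A)) hch.directedOn.directed_val hk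
    refine hc i.2 ?_
    rwa [show t = -1 from Subtype.ext (by simpa using e)] at ht
  have : IsSemireal E := IsSemireal.of_not_isSumSq_neg_one hE.1
  have hmax : ∀ q : E[X], Irreducible q → 2 ≤ q.natDegree → IsSumSq (-1 : AdjoinRoot q) := by
    intro q hq hd
    have := Fact.mk hq
    obtain ⟨θ, hθ⟩ := IsAlgClosed.exists_root (q.map (algebraMap E A))
      (by rw [degree_map]; exact hq.degree_pos.ne')
    rw [IsRoot, eval_map_algebraMap] at hθ
    let φ : AdjoinRoot q →ₐ[E] A := AdjoinRoot.liftAlgHom q (Algebra.ofId E A) θ hθ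
    let φF : AdjoinRoot q →ₐ[L] A := φ.restrictScalars L
    have hlt : E < φF.fieldRange := by
      refine lt_of_le_of_ne (fun x hx => ⟨AdjoinRoot.of q ⟨x, hx⟩, φ.commutes ⟨x, hx⟩⟩) fun e => ?_
      have hθE : θ ∈ E := by
        rw [e]
        exact ⟨AdjoinRoot.root q, by simp [φF, φ]⟩
      refine hq.not_isRoot_of_natDegree_ne_one (by omega) (x := (⟨θ, hθE⟩ : E)) ?_
      exact (algebraMap E A).injective (by
        rw [map_zero, ← aeval_algebraMap_apply_eq_algebraMap_eval]; exact hθ)
    by_contra h
    refine hlt.not_ge (hE.2 (fun h' => h ?_) hlt.le)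
    simpa using isSumSq_map (AlgEquiv.ofInjectiveField φF).symm.toAlgHom h'
  have hsq : ∀ a : E, IsSquare a ∨ IsSquare (-a) := isSquare_or_neg_of_forall fun a ha =>
    hmax _ (X_pow_sub_C_irreducible_of_prime Nat.prime_two fun b hb => ha ⟨b, by rw [← hb, sq]⟩)
      (by rw [natDegree_X_pow_sub_C])
  have := hasMemOrNegMem_squaresCone hsq
  let _ : LinearOrder E := LinearOrder.mkOfAddGroupCone (squaresCone hsq)
  have : IsOrderedRing E := IsOrderedRing.mkOfCone (squaresCone hsq)
  exact ⟨E, inferInstance, inferInstance, inferInstance,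
    polyIVT_of_forall fun q _ hq hd => hmax q hq hd, ⟨algebraMap L E⟩⟩

end Fermat.Agent.HilbertSeventeen
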