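import Fermat.Agent.HilbertSeventeen.PolySign

/-!
# A field with the intermediate value property is real closed
-/

set_option autoImplicit false

noncomputable section

open Polynomial

namespace Fermat.Agent.HilbertSeventeen

theorem isRealClosed_of_polyIVT (R : Type*) [Field R] [LinearOrder R] [IsStrictOrderedRing R]
    [PolyIVT R] : IsRealClosed R :=
  IsRealClosed.of_linearOrderedField (fun hx => isSquare_of_nonneg hx) fun {f} hf => by
    have hf0 : f ≠ 0 := fun e => by simp [e] at hf
    obtain ⟨B, hB⟩ := exists_sign_atTop f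
    obtain ⟨B', hB'⟩ := exists_sign_atBot f
    obtain ⟨b, hb⟩ := exists_gt B
    obtain ⟨a, ha⟩ := exists_lt (min B' b)
    have hA := hB' a (ha.trans_le (min_le_left _ _))
    rw [hf.neg_one_pow, neg_one_mul, ← hB b hb] at hA
    obtain ⟨c, -, -, hc⟩ := PolyIVT.exists_root f a b (ha.trans_le (min_le_right _ _))
      (mul_neg_of_sign_eq_neg (fun e => by
        have h := hB b hb
        rw [e, sign_zero, eq_comm, sign_eq_zero_iff, leadingCoeff_eq_zero] at h
        exact hf0 h) hA)
    exact ⟨c, hc⟩

end Fermat.Agent.HilbertSeventeen
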