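import Fermat.Agent.HilbertSeventeen.ArtinLang

/-!
# Artin's solution of Hilbert's seventeenth question

A polynomial, or rational function, that is nowhere negative is a sum of squares of rational
functions, over the reals, over the rationals and over any field with the intermediate value
property.
-/

set_option autoImplicit false

noncomputable section

namespace Fermat.Agent.HilbertSeventeen

open MvPolynomial

universe u v

/-- **Artin**: an element that is no sum of squares is negative at an ordering. -/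
theorem exists_neg_of_not_isSumSq {K : Type u} [Field K] (h2 : (2 : K) ≠ 0) {f : K}
    (hf : ¬ IsSumSq f) :
    ∃ (R : Type u) (_ : Field R) (_ : LinearOrder R) (_ : IsStrictOrderedRing R) (_ : PolyIVT R)
      (ψ : K →+* R), ψ f < 0 := by
  have : IsSemireal K :=
    IsSemireal.of_not_isSumSq_neg_one fun h => hf (isSumSq_of_not_semireal h2 h f)
  have hf0 : f ≠ 0 := fun e => hf (e ▸ IsSumSq.zero)
  obtain ⟨L, _, _, g, s, hs⟩ : ∃ (L : Type u) (_ : Field L) (_ : IsSemireal L) (g : K →+* L)
      (s : L), g f = -(s * s) := by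
    by_cases hsq : IsSquare (-f)
    · obtain ⟨s, hs⟩ := hsq
      exact ⟨K, inferInstance, inferInstance, RingHom.id K, s, by
        rw [RingHom.id_apply, ← hs, neg_neg]⟩
    have := Fact.mk (X_pow_sub_C_irreducible_of_prime Nat.prime_two
      fun b hb => hsq ⟨b, by rw [← sq]; exact hb.symm⟩)
    refine ⟨AdjoinRoot (Polynomial.X ^ 2 - Polynomial.C (-f)), inferInstance,
      IsSemireal.of_not_isSumSq_neg_one fun h => ?_, AdjoinRoot.of _, AdjoinRoot.root _, ?_⟩
    · obtain ⟨A, B, hA, hB, e⟩ := exists_neg_one_eq h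
      rcases eq_or_ne B 0 with rfl | hB0
      · exact IsSemireal.one_add_ne_zero hA (by linear_combination -e)
      · refine hf ?_
        rw [show f = (1 + A) / B from (eq_div_iff hB0).2 (by linear_combination e)]
        exact isSumSq_div (IsSumSq.one.add hA) hB
    · have h := AdjoinRoot.eval₂_root (Polynomial.X ^ 2 - Polynomial.C (-f))
      rw [Polynomial.eval₂_sub, Polynomial.eval₂_pow, Polynomial.eval₂_X, Polynomial.eval₂_C] at h
      linear_combination h + map_neg (AdjoinRoot.of (Polynomial.X ^ 2 - Polynomial.C (-f))) f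
  obtain ⟨R, _, _, _, _, ⟨φ⟩⟩ := exists_polyIVT_extension L
  refine ⟨R, inferInstance, inferInstance, inferInstance, inferInstance, φ.comp g, ?_⟩
  refine lt_of_le_of_ne ?_ ((_root_.map_ne_zero _).2 hf0)
  rw [RingHom.comp_apply, hs, map_neg, map_mul, neg_nonpos]
  exact mul_self_nonneg _

section general

variable {B : Type u} [Field B] {R : Type v} [Field R] [LinearOrder R] [IsStrictOrderedRing R]
variable (ι : B →+* R) {n : ℕ}

theorem sign_eq_of_isSumSq (hB : ∀ b, 0 ≤ ι b → IsSumSq b) {S : Type*} [Field S]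
    [LinearOrder S] [IsStrictOrderedRing S] (κ : B →+* S) (b : B) :
    SignType.sign (ι b) = SignType.sign (κ b) := by
  rcases lt_trichotomy (ι b) 0 with h | h | h
  · have h' := (isSumSq_map κ (hB (-b) (by rw [map_neg]; linarith))).nonneg
    have hne : κ b ≠ 0 := (_root_.map_ne_zero κ).2 fun e => by simp [e] at h
    rw [map_neg, neg_nonneg] at h'
    rw [sign_neg h, sign_neg (h'.lt_of_ne hne)]
  · rw [(_root_.map_eq_zero ι).1 h, map_zero ι, map_zero κ, sign_zero, sign_zero]
  · have h' := (isSumSq_map κ (hB b h.le)).nonneg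
    have hne : κ b ≠ 0 := (_root_.map_ne_zero κ).2 fun e => by simp [e] at h
    rw [sign_pos h, sign_pos (h'.lt_of_ne hne.symm)]

include ι in
theorem two_ne_zero_of_hom : (2 : B) ≠ 0 := fun e => by
  have := congrArg ι e
  simp [map_ofNat] at this

variable [PolyIVT R]

/-- A polynomial that is nowhere negative is a sum of squares of rational functions. -/
theorem isSumSq_of_nonneg (hB : ∀ b, 0 ≤ ι b → IsSumSq b) (f : MvPolynomial (Fin n) B)
    (h : ∀ x : Fin n → R, 0 ≤ f.eval₂ ι x) :
    IsSumSq (algebraMap _ (FractionRing (MvPolynomial (Fin n) B)) f) := by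
  by_contra hf
  obtain ⟨S, _, _, _, _, ψ, hψ⟩ := exists_neg_of_not_isSumSq (by
    rw [← map_ofNat (algebraMap B (FractionRing (MvPolynomial (Fin n) B))) 2]
    exact (_root_.map_ne_zero _).2 (two_ne_zero_of_hom ι)) hf
  set χ := ψ.comp (algebraMap (MvPolynomial (Fin n) B) _) with hχ
  have hev : χ = eval₂Hom (χ.comp C) fun i => χ (X i) :=
    ringHom_ext (fun b => by simp) fun i => by simp
  have hneg : f.eval₂ (χ.comp C) (fun i => χ (X i)) < 0 := by
    have e : χ f = eval₂Hom (χ.comp C) (fun i => χ (X i)) f := DFunLike.congr_fun hev f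
    rw [coe_eval₂Hom] at e
    rw [← e]
    exact hψ
  obtain ⟨y, hy⟩ := exists_point (χ.comp C) ι
    (fun b => (sign_eq_of_isSumSq ι hB (χ.comp C) b).symm) n {f} fun i => χ (X i)
  have hy' := hy f (Finset.mem_singleton_self f)
  rw [sign_neg hneg, eq_comm, sign_eq_neg_one_iff] at hy'
  exact absurd (h y) hy'.not_ge

theorem exists_sq_mul_eq {A : Type*} [CommRing A] [IsDomain A] {s : FractionRing A}
    (hs : IsSumSq s) : ∃ q G : A, q ≠ 0 ∧ IsSumSq G ∧
      s * (algebraMap A (FractionRing A) q * algebraMap A (FractionRing A) q) =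
        algebraMap A (FractionRing A) G := by
  induction hs with
  | zero => exact ⟨1, 0, one_ne_zero, IsSumSq.zero, by simp⟩
  | @sq_add a S _ ih =>
    obtain ⟨q, G, hq, hG, e⟩ := ih
    obtain ⟨c, d, hd, rfl⟩ := IsFractionRing.div_surjective (A := A) a
    have hd0 : d ≠ 0 := nonZeroDivisors.ne_zero hd
    refine ⟨d * q, c * q * (c * q) + G * (d * d), mul_ne_zero hd0 hq,
      (IsSumSq.mul_self _).add (hG.mul (IsSumSq.mul_self _)), ?_⟩
    have hne : algebraMap A (FractionRing A) d ≠ 0 :=
      (map_ne_zero_iff _ (IsFractionRing.injective A _)).2 hd0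
    simp only [map_add, map_mul]
    field_simp
    linear_combination algebraMap A (FractionRing A) d ^ 2 * e

/-- A sum of squares of rational functions is nowhere negative. -/
theorem nonneg_of_isSumSq (f : MvPolynomial (Fin n) B)
    (hf : IsSumSq (algebraMap _ (FractionRing (MvPolynomial (Fin n) B)) f)) (x : Fin n → R) :
    0 ≤ f.eval₂ ι x := by
  obtain ⟨q, G, hq, hG, e⟩ := exists_sq_mul_eq hf
  have e' : f * (q * q) = G :=
    IsFractionRing.injective (MvPolynomial (Fin n) B)
      (FractionRing (MvPolynomial (Fin n) B)) (by rw [map_mul, map_mul, e])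
  obtain ⟨v, hv⟩ : ∃ v : Fin n → R, q.eval₂ ι v ≠ 0 := by
    by_contra! h
    refine hq (map_injective ι ι.injective ?_)
    rw [map_zero]
    exact MvPolynomial.funext fun v => by rw [eval_map, h v, map_zero]
  set χ : MvPolynomial (Fin n) B →+* Polynomial R := eval₂Hom (Polynomial.C.comp ι)
    fun i => Polynomial.C (x i) + Polynomial.X * Polynomial.C (v i - x i) with hχ
  have hev : ∀ (p : MvPolynomial (Fin n) B) (t : R),
      (χ p).eval t = p.eval₂ ι fun i => x i + t * (v i - x i) := fun p t => by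
    rw [← Polynomial.coe_evalRingHom, ← RingHom.comp_apply, ← coe_eval₂Hom]
    refine DFunLike.congr_fun (ringHom_ext (fun b => ?_) fun i => ?_) p <;> simp [hχ]
  by_contra! hlt
  have hf0 : (χ f).eval 0 < 0 := by simpa [hev] using hlt
  have hq0 : χ q ≠ 0 := fun e0 => hv (by
    have := hev q 1
    simpa [e0] using this.symm)
  have hp0 : χ f * χ q ≠ 0 := mul_ne_zero (fun e0 => by simp [e0] at hf0) hq0
  obtain ⟨t, ht0, ht⟩ := Set.Finite.exists_between' (s := {(0 : R)})
    (t := {c | 0 < c ∧ (χ f * χ q).IsRoot c}) (Set.finite_singleton _)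
    ((Polynomial.finite_setOfPred_isRoot hp0).subset fun c hc => hc.2)
    fun a ha c hc => by rw [Set.mem_singleton_iff.1 ha]; exact hc.1
  have h0t : 0 < t := ht0 0 rfl
  have hne : ∀ c, 0 < c → c ≤ t → (χ f * χ q).eval c ≠ 0 := fun c hc hct e0 =>
    (ht c ⟨hc, e0⟩).not_ge hct
  have hsign := sign_eq_of_no_root (χ f) h0t.le hf0.ne
    (fun e0 => hne t h0t le_rfl (by simp [e0]))
    fun c h1 h2 e0 => hne c h1 h2.le (by simp [e0])
  rw [sign_neg hf0, eq_comm, sign_eq_neg_one_iff] at hsign
  have hqt : (χ q).eval t ≠ 0 := fun e0 => hne t h0t le_rfl (by simp [e0])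
  have hGt : 0 ≤ (χ G).eval t :=
    (isSumSq_map (Polynomial.evalRingHom t) (isSumSq_map χ hG)).nonneg
  rw [← e', map_mul, map_mul, Polynomial.eval_mul, Polynomial.eval_mul] at hGt
  nlinarith [mul_self_pos.2 hqt]

/-- **Hilbert's seventeenth, for polynomials.** -/
theorem isSumSq_iff_nonneg (hB : ∀ b, 0 ≤ ι b → IsSumSq b) (f : MvPolynomial (Fin n) B) :
    IsSumSq (algebraMap _ (FractionRing (MvPolynomial (Fin n) B)) f) ↔
      ∀ x : Fin n → R, 0 ≤ f.eval₂ ι x :=
  ⟨nonneg_of_isSumSq ι f, isSumSq_of_nonneg ι hB f⟩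

/-- **Hilbert's seventeenth, for rational functions.** -/
theorem isSumSq_div_iff (hB : ∀ b, 0 ≤ ι b → IsSumSq b) (p q : MvPolynomial (Fin n) B)
    (hq : q ≠ 0) :
    IsSumSq (algebraMap _ (FractionRing (MvPolynomial (Fin n) B)) p /
        algebraMap _ (FractionRing (MvPolynomial (Fin n) B)) q) ↔
      ∀ x : Fin n → R, q.eval₂ ι x ≠ 0 → 0 ≤ p.eval₂ ι x / q.eval₂ ι x := by
  set a := algebraMap (MvPolynomial (Fin n) B) (FractionRing (MvPolynomial (Fin n) B))
  have ha : a q ≠ 0 := (map_ne_zero_iff _ (IsFractionRing.injective _ _)).2 hq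
  have key : IsSumSq (a p / a q) ↔ IsSumSq (a (p * q)) := by
    rw [map_mul]
    constructor <;> intro h
    · have := h.mul (IsSumSq.mul_self (a q))
      rwa [show a p / a q * (a q * a q) = a p * a q by field_simp] at this
    · have := h.mul (IsSumSq.mul_self (a q)⁻¹)
      rwa [show a p * a q * ((a q)⁻¹ * (a q)⁻¹) = a p / a q by field_simp] at this
  rw [key, isSumSq_iff_nonneg ι hB]
  refine forall_congr' fun x => ?_
  rw [eval₂_mul]
  constructor
  · intro h hx
    rw [show p.eval₂ ι x / q.eval₂ ι x = p.eval₂ ι x * q.eval₂ ι x / (q.eval₂ ι x) ^ 2 by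
      field_simp]
    exact div_nonneg h (sq_nonneg _)
  · intro h
    rcases eq_or_ne (q.eval₂ ι x) 0 with e | e
    · rw [e, mul_zero]
    · have := mul_nonneg (h e) (sq_nonneg (q.eval₂ ι x))
      rwa [show p.eval₂ ι x / q.eval₂ ι x * q.eval₂ ι x ^ 2 = p.eval₂ ι x * q.eval₂ ι x by
        field_simp] at this

end general

section fields

variable {n : ℕ}

/-- **Artin's theorem over a field with the intermediate value property.** -/
theorem artin_seventeen {R : Type u} [Field R] [LinearOrder R] [IsStrictOrderedRing R] [PolyIVT R]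
    (f : MvPolynomial (Fin n) R) :
    IsSumSq (algebraMap _ (FractionRing (MvPolynomial (Fin n) R)) f) ↔
      ∀ x : Fin n → R, 0 ≤ eval x f := by
  simpa only [eval₂_id] using
    isSumSq_iff_nonneg (RingHom.id R) (fun b hb => (isSquare_of_nonneg hb).isSumSq) f

/-- **Hilbert's seventeenth question.** -/
theorem hilbert_seventeen (f : MvPolynomial (Fin n) ℝ) (h : ∀ x : Fin n → ℝ, 0 ≤ eval x f) :
    ∃ (k : ℕ) (g : Fin k → FractionRing (MvPolynomial (Fin n) ℝ)),
      algebraMap _ (FractionRing (MvPolynomial (Fin n) ℝ)) f = ∑ i, g i ^ 2 := by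
  obtain ⟨k, g, hg⟩ := exists_fin_of_isSumSq ((artin_seventeen f).2 h)
  exact ⟨k, g, by simpa only [sq] using hg⟩

/-- Without rational functions: a multiple by a square is a sum of squares of polynomials. -/
theorem hilbert_seventeen_polynomial (f : MvPolynomial (Fin n) ℝ)
    (h : ∀ x : Fin n → ℝ, 0 ≤ eval x f) :
    ∃ (q : MvPolynomial (Fin n) ℝ) (k : ℕ) (g : Fin k → MvPolynomial (Fin n) ℝ),
      q ≠ 0 ∧ q ^ 2 * f = ∑ i, g i ^ 2 := by
  obtain ⟨q, G, hq, hG, e⟩ := exists_sq_mul_eq ((artin_seventeen f).2 h)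
  obtain ⟨k, g, hg⟩ := exists_fin_of_isSumSq hG
  refine ⟨q, k, g, hq, IsFractionRing.injective (MvPolynomial (Fin n) ℝ)
    (FractionRing (MvPolynomial (Fin n) ℝ)) ?_⟩
  simp only [sq, ← hg, map_mul, ← e]
  ring

/-- **Rational functions over the reals.** -/
theorem hilbert_seventeen_rational (p q : MvPolynomial (Fin n) ℝ) (hq : q ≠ 0) :
    IsSumSq (algebraMap _ (FractionRing (MvPolynomial (Fin n) ℝ)) p /
        algebraMap _ (FractionRing (MvPolynomial (Fin n) ℝ)) q) ↔
      ∀ x : Fin n → ℝ, eval x q ≠ 0 → 0 ≤ eval x p / eval x q := by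
  simpa only [eval₂_id] using
    isSumSq_div_iff (RingHom.id ℝ) (fun b hb => (isSquare_of_nonneg hb).isSumSq) p q hq

theorem isSumSq_rat {b : ℚ} (hb : 0 ≤ b) : IsSumSq b := by
  obtain ⟨m, hm⟩ : ∃ m : ℕ, b.num = m :=
    ⟨b.num.toNat, (Int.toNat_of_nonneg (Rat.num_nonneg.2 hb)).symm⟩
  have e : b = ((m * b.den : ℕ) : ℚ) / ((b.den * b.den : ℕ) : ℚ) := by
    conv_lhs => rw [← b.num_div_den, hm]
    have : (b.den : ℚ) ≠ 0 := by exact_mod_cast b.den_pos.ne'
    push_cast
    field_simp
  rw [e]
  exact isSumSq_div (IsSumSq.natCast _) (IsSumSq.natCast _)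

/-- **Over the rationals**: nowhere negative at rational points is enough. -/
theorem hilbert_seventeen_rat (f : MvPolynomial (Fin n) ℚ) :
    IsSumSq (algebraMap _ (FractionRing (MvPolynomial (Fin n) ℚ)) f) ↔
      ∀ x : Fin n → ℚ, 0 ≤ eval x f := by
  rw [isSumSq_iff_nonneg (Rat.castHom ℝ) (fun b hb => isSumSq_rat (by
    simpa using hb))]
  have hcast : ∀ x : Fin n → ℚ,
      f.eval₂ (Rat.castHom ℝ) (fun i => (x i : ℝ)) = ((eval x f : ℚ) : ℝ) := fun x => by
    rw [← eval₂_id, ← Rat.coe_castHom, eval₂_comp_left (Rat.castHom ℝ)]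
    rfl
  refine ⟨fun h x => ?_, fun h x => ?_⟩
  · have := h fun i => (x i : ℝ)
    rw [hcast] at this
    exact_mod_cast this
  · have hd : DenseRange (Pi.map fun _ : Fin n => ((↑) : ℚ → ℝ)) :=
      DenseRange.piMap fun _ => Rat.denseRange_cast
    refine hd.induction_on x (isClosed_le continuous_const ?_) fun y => ?_
    · simp only [← eval_map]
      exact MvPolynomial.continuous_eval _
    · show (0 : ℝ) ≤ f.eval₂ _ fun i => ((y i : ℚ) : ℝ)
      rw [hcast]
      exact_mod_cast h y

end fields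

end Fermat.Agent.HilbertSeventeen
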