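import Fermat.Agent.HilbertSeventeen.PureSubform
import Fermat.Agent.HilbertSeventeen.Main
import Fermat.Agent.Pfister.TwoSquares

/-!
# Pfister's bound

If `L(√-1)` is `C_n`, every sum of squares in `L` is a sum of `2 ^ n` squares; for the rational
functions in `n` variables over `ℝ` this bounds Hilbert's seventeenth question.
-/

set_option autoImplicit false

noncomputable section

namespace Fermat.Agent.HilbertSeventeen

open Fermat.Agent.WittRat Fermat.Agent.MilnorKRat Fermat.Agent.QuadraticHauptsatz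

section abstract

open Polynomial

variable {F : Type*} [Field F] {n : ℕ}

theorem mapW_id_eq (z : W F) : mapW (RingHom.id F) z = z :=
  DFunLike.congr_fun (WittRat.hom_ext (f := mapW (RingHom.id F)) (g := AddMonoidHom.id _)
    fun a => by rw [mapW_wittClass]; exact congrArg _ (Units.ext rfl)) z

/-- A Pfister form represents sums of two squares. -/
theorem isValue_add_sq (h : ¬ IsSquare (-1 : F)) (h2 : (2 : F) ≠ 0)
    (hC : letI := Fact.mk (FA.Pfister.irreducible_gauss h); FA.Tsen.IsC n (FA.Pfister.Gauss F))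
    {l : List Fˣ} (hl : l.length = n) (b₁ b₂ : F) : IsValue l (b₁ ^ 2 + b₂ ^ 2) := by
  have := Fact.mk (FA.Pfister.irreducible_gauss h)
  rcases eq_or_ne b₂ 0 with rfl | hb₂
  · simpa using isValue_sq l b₁
  by_cases hl0 : pfisterClass l = 0
  · exact isValue_of_eq_zero h2 l hl0 _
  set of := AdjoinRoot.of (X ^ 2 + 1 : F[X])
  set r := AdjoinRoot.root (X ^ 2 + 1 : F[X])
  obtain ⟨y, hy⟩ := FA.Pfister.diagonal_value hC (σ := Fin (2 ^ l.length))
    (by rw [← map_ofNat of 2, ne_eq, map_eq_zero]; exact h2)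
    (a := fun i => of (pfb l i : F))
    (fun i => (_root_.map_ne_zero of).2 (pfb l i).ne_zero)
    (by simp [hl]) (of b₁ + of b₂ * r)
  choose p q hpq using fun i => FA.Pfister.exists_coords (y i)
  set P := ∑ i, (pfb l i : F) * p i ^ 2
  set Q := ∑ i, (pfb l i : F) * q i ^ 2
  set B := ∑ i, (pfb l i : F) * (p i * q i)
  have key : of (P - Q - b₁) + of (2 * B - b₂) * r = 0 := by
    have e : ∀ i, of (pfb l i : F) * y i ^ 2 = of ((pfb l i : F) * p i ^ 2) -
        of ((pfb l i : F) * q i ^ 2) + of (2 * ((pfb l i : F) * (p i * q i))) * r := fun i => by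
      rw [hpq i]
      simp only [of, map_mul, map_pow, map_ofNat]
      linear_combination (of (pfb l i : F) * of (q i) ^ 2) * FA.Pfister.root_sq (F := F)
    simp only [e, Finset.sum_add_distrib, Finset.sum_sub_distrib, ← Finset.sum_mul] at hy
    simp only [P, Q, B, Finset.mul_sum, map_sub, map_sum]
    linear_combination hy
  obtain ⟨e₁, e₂⟩ := FA.Pfister.coords_eq_zero h key
  -- the vectors `u`, `v` with `φ u = b φ v`
  have hval : ∀ x : Fin (2 ^ l.length) → F, IsValue l (∑ i, (pfb l i : F) * x i ^ 2) := fun x => by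
    have := isValue_pfb (RingHom.id F) l x
    simp only [RingHom.id_apply] at this
    rwa [show l.map (mapUnits (RingHom.id F)) = l from
      (List.map_congr_left fun a _ => Units.ext rfl).trans (List.map_id l)] at this
  have hQ : IsValue l Q := hval q
  have hu : IsValue l (Q * (b₁ ^ 2 + b₂ ^ 2) / b₂ ^ 2) := by
    have hu' := hval fun i => p i - b₁ / b₂ * q i
    have he : ∑ i, (pfb l i : F) * (p i - b₁ / b₂ * q i) ^ 2 =
        P - 2 * (b₁ / b₂) * B + (b₁ / b₂) ^ 2 * Q := by
      simp only [P, Q, B, Finset.mul_sum, ← Finset.sum_add_distrib, ← Finset.sum_sub_distrib]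
      exact Finset.sum_congr rfl fun i _ => by ring
    rw [he] at hu'
    rwa [show Q * (b₁ ^ 2 + b₂ ^ 2) / b₂ ^ 2 = P - 2 * (b₁ / b₂) * B + (b₁ / b₂) ^ 2 * Q by
      field_simp
      linear_combination (-b₂ ^ 2) * e₁ + b₁ * b₂ * e₂]
  have hQ0 : Q ≠ 0 := fun hQ0 => by
    have hq : ¬ Aniso (fun i => mapUnits (RingHom.id F) (pfb l i)) := fun ha => by
      have hq := ha q (by simpa [Q] using hQ0)
      have hB : B = 0 := Finset.sum_eq_zero fun i _ => by simp [hq]
      exact hb₂ (by linear_combination -e₂ + 2 * hB)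
    have := mapW_pfisterClass_eq_zero (RingHom.id F) l hq
    rw [show pfisterClass l = mapW (RingHom.id F) (pfisterClass l) from
      (mapW_id_eq _).symm] at hl0
    exact hl0 this
  have hb : b₁ ^ 2 + b₂ ^ 2 ≠ 0 := fun e => h ⟨b₁ / b₂, by
    field_simp
    linear_combination -e⟩
  set bU := Units.mk0 _ hb
  set sU := Units.mk0 (Q / b₂ ^ 2) (div_ne_zero hQ0 (pow_ne_zero 2 hb₂))
  have hs : scale sU (pfisterClass l) = pfisterClass l := scale_of_isValue l sU (by
    have := isValue_mul_sq l hQ b₂⁻¹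
    simpa [sU, div_eq_mul_inv, inv_pow] using this)
  have hsb : scale (bU * sU) (pfisterClass l) = pfisterClass l := scale_of_isValue l _ (by
    rw [Units.val_mul, Units.val_mk0, Units.val_mk0,
      show (b₁ ^ 2 + b₂ ^ 2) * (Q / b₂ ^ 2) = Q * (b₁ ^ 2 + b₂ ^ 2) / b₂ ^ 2 by ring]
    exact hu)
  rw [← scale_scale, hs] at hsb
  exact isValue_of_scale_eq h2 l bU hsb

/-- **Pfister**: a Pfister form represents every sum of squares. -/
theorem isValue_of_isSumSq (h : ¬ IsSquare (-1 : F)) (h2 : (2 : F) ≠ 0)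
    (hC : letI := Fact.mk (FA.Pfister.irreducible_gauss h); FA.Tsen.IsC n (FA.Pfister.Gauss F))
    {s : F} (hs : IsSumSq s) : ∀ l : List Fˣ, l.length = n → IsValue l s := by
  induction hs with
  | zero => exact fun l _ => isValue_zero l
  | @sq_add a S _ ih =>
    intro l hl
    rcases eq_or_ne a 0 with rfl | ha
    · simpa using ih l hl
    have hb : IsValue l (S / a ^ 2) := by
      have := isValue_mul_sq l (ih l hl) a⁻¹
      rwa [inv_pow, ← div_eq_mul_inv] at this
    suffices hone : IsValue l (1 + S / a ^ 2) by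
      have := isValue_mul_sq l hone a
      rwa [show (1 + S / a ^ 2) * a ^ 2 = a * a + S by field_simp] at this
    set b := S / a ^ 2
    rcases eq_or_ne (1 + b) 0 with h1 | h1
    · rw [h1]; exact isValue_zero l
    obtain ⟨w, p, hp, hw⟩ := exists_pure_of_isValue l hb
    rcases eq_or_ne p 0 with rfl | hp0
    · rw [hw, add_zero, show (1 : F) = 1 ^ 2 by ring]
      exact isValue_add_sq h h2 hC hl 1 w
    set c := Units.mk0 (1 + b) h1
    have hw1 : 1 + w ^ 2 ≠ 0 := fun e => h ⟨w, by linear_combination -e⟩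
    set e := Units.mk0 (1 + w ^ 2) hw1
    obtain ⟨τ, hτ, hcl⟩ := exists_cons_of_isPureValue ((-c) :: l) (-e)
      ⟨p, 1, hp, by simpa using isValue_sq l 1, by simp [c, e, hw]; ring⟩
    rw [List.length_cons, add_left_inj] at hτ
    have hτv : IsValue τ ((e : Fˣ) : F) := by
      rw [Units.val_mk0, show (1 : F) = 1 ^ 2 by ring]
      exact isValue_add_sq h h2 hC (hτ.trans hl) 1 w
    rw [pfisterClass, pfisterClass, scale_neg, scale_neg, scale_of_isValue τ e hτv,
      add_neg_cancel, ← sub_eq_add_neg, sub_eq_zero, eq_comm] at hcl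
    exact isValue_of_scale_eq h2 l c hcl

/-- The values of `⟨⟨1, …, 1⟩⟩` are the sums of `2 ^ n` squares. -/
theorem isSqSum_of_isValue_one : ∀ (n : ℕ) {c : F}, IsValue (List.replicate n 1) c →
    FA.Pfister.IsSqSum (2 ^ n) c
  | 0, c, ⟨x, hx⟩ => ⟨fun _ => x, by simp [hx]⟩
  | n + 1, c, ⟨s, t, hs, ht, hc⟩ => by
    obtain ⟨x, rfl⟩ := isSqSum_of_isValue_one n hs
    obtain ⟨y, rfl⟩ := isSqSum_of_isValue_one n ht
    rw [hc, Units.val_one, one_mul]
    have := FA.Pfister.isSqSum_of_card (m := 2 ^ (n + 1)) (Sum.elim x y) (by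
      simp [pow_succ, mul_two])
    simpa [Fintype.sum_sum_type] using this

/-- **Pfister's theorem on sums of squares.** -/
theorem isSqSum_two_pow_of_isSumSq (h : ¬ IsSquare (-1 : F)) (h2 : (2 : F) ≠ 0)
    (hC : letI := Fact.mk (FA.Pfister.irreducible_gauss h); FA.Tsen.IsC n (FA.Pfister.Gauss F))
    {s : F} (hs : IsSumSq s) : FA.Pfister.IsSqSum (2 ^ n) s :=
  isSqSum_of_isValue_one n (isValue_of_isSumSq h h2 hC hs _ (by simp))

end abstract

section rationalFunctions

open MvPolynomial

variable (n : ℕ) (k C : Type*) [Field k] [Field C] [IsAlgClosed C] [Algebra k C]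

/-- `K(√-1)` is `C_n` for `K = k(X₁, …, Xₙ)` when `k(√-1)` is algebraically closed. -/
theorem isC_gauss_fractionRing {i : C} (hi : i * i = -1)
    (hgen : ∀ c : C, ∃ a b : k, c = algebraMap k C a + algebraMap k C b * i)
    (h : ¬ IsSquare (-1 : FractionRing (MvPolynomial (Fin n) k))) :
    letI := Fact.mk (FA.Pfister.irreducible_gauss h)
    FA.Tsen.IsC n (FA.Pfister.Gauss (FractionRing (MvPolynomial (Fin n) k))) := by
  have := Fact.mk (FA.Pfister.irreducible_gauss h)
  set L := FractionRing (MvPolynomial (Fin n) C)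
  have hinj : Function.Injective ((algebraMap (MvPolynomial (Fin n) C) L).comp
      (MvPolynomial.map (algebraMap k C))) :=
    (IsFractionRing.injective (MvPolynomial (Fin n) C) L).comp
      (map_injective _ (algebraMap k C).injective)
  set ι : FractionRing (MvPolynomial (Fin n) k) →+* L := IsFractionRing.lift hinj
  have hI : (Polynomial.X ^ 2 + 1 : Polynomial (FractionRing (MvPolynomial (Fin n) k))).eval₂ ι
      (algebraMap (MvPolynomial (Fin n) C) L (MvPolynomial.C i)) = 0 := by
    rw [Polynomial.eval₂_add, Polynomial.eval₂_X_pow, Polynomial.eval₂_one, ← map_pow, ← map_pow,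
      sq, hi]
    simp
  set ψ : FA.Pfister.Gauss (FractionRing (MvPolynomial (Fin n) k)) →+* L :=
    AdjoinRoot.lift ι _ hI
  have hR : ∀ q : MvPolynomial (Fin n) k,
      algebraMap (MvPolynomial (Fin n) C) L (q.map (algebraMap k C)) ∈ ψ.range := fun q =>
    ⟨AdjoinRoot.of _ (algebraMap _ (FractionRing (MvPolynomial (Fin n) k)) q), by
      simp [ψ, ι, AdjoinRoot.lift_of]⟩
  have hpoly : ∀ p : MvPolynomial (Fin n) C, algebraMap _ L p ∈ ψ.range := fun p => by
    induction p using MvPolynomial.induction_on with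
    | C c =>
      obtain ⟨a, b, rfl⟩ := hgen c
      rw [map_add MvPolynomial.C, map_mul MvPolynomial.C, map_add, map_mul]
      refine add_mem ?_ (mul_mem ?_ ⟨AdjoinRoot.root _, by simp [ψ, AdjoinRoot.lift_root]⟩)
      · simpa using hR (MvPolynomial.C a)
      · simpa using hR (MvPolynomial.C b)
    | add p q hp hq => rw [map_add]; exact add_mem hp hq
    | mul_X p j hp =>
      rw [map_mul]
      exact mul_mem hp (by simpa using hR (X j))
  have hsurj : Function.Surjective ψ := fun z => by
    obtain ⟨p, q, -, rfl⟩ := IsFractionRing.div_surjective (A := MvPolynomial (Fin n) C) z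
    obtain ⟨a, ha⟩ := hpoly p
    obtain ⟨b, hb⟩ := hpoly q
    exact ⟨a / b, by rw [map_div₀, ha, hb]⟩
  set x : Fin n → L := fun j => algebraMap (MvPolynomial (Fin n) C) L (X j)
  have hx : AlgebraicIndependent C x :=
    (MvPolynomial.algebraicIndependent_X (Fin n) C).map'
      (f := IsScalarTower.toAlgHom C (MvPolynomial (Fin n) C) L)
      (IsFractionRing.injective (MvPolynomial (Fin n) C) L)
  have htop : IntermediateField.adjoin C (Set.range x) = ⊤ := by
    rw [eq_top_iff]
    intro z _
    obtain ⟨p, q, -, rfl⟩ := IsFractionRing.div_surjective (A := MvPolynomial (Fin n) C) z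
    have hmem : ∀ p : MvPolynomial (Fin n) C,
        algebraMap _ L p ∈ IntermediateField.adjoin C (Set.range x) := fun p => by
      induction p using MvPolynomial.induction_on with
      | C c =>
        rw [← MvPolynomial.algebraMap_eq, ← IsScalarTower.algebraMap_apply]
        exact IntermediateField.algebraMap_mem _ c
      | add p q hp hq => rw [map_add]; exact add_mem hp hq
      | mul_X p j hp =>
        rw [map_mul]
        exact mul_mem hp (IntermediateField.subset_adjoin C _ ⟨j, rfl⟩)
    exact div_mem (hmem p) (hmem q)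
  have hL : FA.Tsen.IsC n L := by
    have := ((FA.Tsen.isC_adjoin_range (FA.Tsen.isC_zero C) hx).of_ringEquiv
      ((IntermediateField.equivOfEq htop).trans IntermediateField.topEquiv).toRingEquiv)
    rwa [zero_add] at this
  exact hL.of_ringEquiv (RingEquiv.ofBijective ψ ⟨ψ.injective, hsurj⟩).symm

theorem not_isSquare_neg_one_fractionRing :
    ¬ IsSquare (-1 : FractionRing (MvPolynomial (Fin n) ℝ)) := fun h => by
  have h1 : IsSumSq (algebraMap (MvPolynomial (Fin n) ℝ)
      (FractionRing (MvPolynomial (Fin n) ℝ)) (-1)) := by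
    rw [map_neg, map_one]
    exact h.isSumSq
  have := (artin_seventeen (-1 : MvPolynomial (Fin n) ℝ)).1 h1 0
  norm_num at this

/-- **Pfister**: in `ℝ(X₁, …, Xₙ)` every sum of squares is a sum of `2 ^ n` squares. -/
theorem isSqSum_two_pow_real {s : FractionRing (MvPolynomial (Fin n) ℝ)} (hs : IsSumSq s) :
    FA.Pfister.IsSqSum (2 ^ n) s :=
  haveI : CharZero (FractionRing (MvPolynomial (Fin n) ℝ)) :=
    charZero_of_injective_ringHom
      (IsFractionRing.injective (MvPolynomial (Fin n) ℝ) (FractionRing (MvPolynomial (Fin n) ℝ)))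
  isSqSum_two_pow_of_isSumSq (not_isSquare_neg_one_fractionRing n) two_ne_zero
    (isC_gauss_fractionRing n ℝ ℂ Complex.I_mul_I
      (fun c => ⟨c.re, c.im, (Complex.re_add_im c).symm⟩) (not_isSquare_neg_one_fractionRing n)) hs

end rationalFunctions

/-- **Hilbert's seventeenth with Pfister's bound.** -/
theorem hilbert_seventeen_bound {n : ℕ} (f : MvPolynomial (Fin n) ℝ)
    (h : ∀ x : Fin n → ℝ, 0 ≤ MvPolynomial.eval x f) :
    ∃ g : Fin (2 ^ n) → FractionRing (MvPolynomial (Fin n) ℝ),
      algebraMap _ (FractionRing (MvPolynomial (Fin n) ℝ)) f = ∑ i, g i ^ 2 := by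
  obtain ⟨g, hg⟩ := isSqSum_two_pow_real n ((artin_seventeen f).2 h)
  exact ⟨g, hg.symm⟩

end Fermat.Agent.HilbertSeventeen
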