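import Fermat.Agent.HilbertSeventeen.IVTField

/-!
# Signs of polynomials in a field with the intermediate value property

Rolle's theorem, constancy of the sign between roots, the sign near a simple root and the sign
far to the left and to the right.
-/

set_option autoImplicit false

noncomputable section

open Polynomial

namespace Fermat.Agent.HilbertSeventeen

variable {R : Type*} [Field R] [LinearOrder R] [IsStrictOrderedRing R]

theorem mul_neg_of_sign_ne {x y : R} (hx : x ≠ 0) (hy : y ≠ 0)
    (h : SignType.sign x ≠ SignType.sign y) : x * y < 0 := by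
  rcases hx.lt_or_gt with hx | hx <;> rcases hy.lt_or_gt with hy | hy
  · exact absurd ((sign_neg hx).trans (sign_neg hy).symm) h
  · exact mul_neg_of_neg_of_pos hx hy
  · exact mul_neg_of_pos_of_neg hx hy
  · exact absurd ((sign_pos hx).trans (sign_pos hy).symm) h

theorem mul_neg_of_sign_eq_neg {x y : R} (hy : y ≠ 0)
    (h : SignType.sign x = -SignType.sign y) : x * y < 0 := by
  rcases hy.lt_or_gt with hy | hy
  · rw [sign_neg hy, neg_neg] at h
    exact mul_neg_of_pos_of_neg (sign_eq_one_iff.1 h) hy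
  · rw [sign_pos hy] at h
    exact mul_neg_of_neg_of_pos (sign_eq_neg_one_iff.1 h) hy

section ivt

variable [PolyIVT R]

/-- Without a root in between the sign is constant. -/
theorem sign_eq_of_no_root (p : R[X]) {a b : R} (hab : a ≤ b) (ha : p.eval a ≠ 0)
    (hb : p.eval b ≠ 0) (h : ∀ c, a < c → c < b → p.eval c ≠ 0) :
    SignType.sign (p.eval a) = SignType.sign (p.eval b) := by
  by_contra hne
  rcases hab.eq_or_lt with rfl | hab
  · exact hne rfl
  obtain ⟨c, h1, h2, h3⟩ := PolyIVT.exists_root p a b hab (mul_neg_of_sign_ne ha hb hne)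
  exact h c h1 h2 h3

theorem rolle_adjacent (p : R[X]) (hp : p ≠ 0) {a b : R} (hab : a < b) (ha : p.eval a = 0)
    (hb : p.eval b = 0) (h : ∀ c, a < c → c < b → p.eval c ≠ 0) :
    ∃ c, a < c ∧ c < b ∧ p.derivative.eval c = 0 := by
  obtain ⟨q, hq, hqa⟩ := exists_eq_pow_rootMultiplicity_mul_and_not_dvd p hp a
  obtain ⟨m, hm⟩ : ∃ m, p.rootMultiplicity a = m + 1 :=
    ⟨_, (Nat.succ_pred_eq_of_pos ((rootMultiplicity_pos hp).2 ha)).symm⟩
  rw [hm] at hq
  have hq0 : q ≠ 0 := fun e => by simp [e] at hq; exact hp hq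
  have hqb : q.IsRoot b := by
    rw [hq, eval_mul, mul_eq_zero] at hb
    exact hb.resolve_left (by simp [sub_eq_zero, hab.ne'])
  obtain ⟨g, hg, hgb⟩ := exists_eq_pow_rootMultiplicity_mul_and_not_dvd q hq0 b
  obtain ⟨n, hn⟩ : ∃ n, q.rootMultiplicity b = n + 1 :=
    ⟨_, (Nat.succ_pred_eq_of_pos ((rootMultiplicity_pos hq0).2 hqb)).symm⟩
  rw [hn] at hg
  have hga : g.eval a ≠ 0 := fun e => hqa (by
    rw [dvd_iff_isRoot, IsRoot, hg, eval_mul, e, mul_zero])
  have hgb' : g.eval b ≠ 0 := fun e => hgb (dvd_iff_isRoot.2 e)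
  have hsign := sign_eq_of_no_root g hab.le hga hgb' fun c h1 h2 e => h c h1 h2 (by
    rw [hq, hg]; simp [e])
  have hpos : 0 < g.eval a * g.eval b := by
    rcases hga.lt_or_gt with hs | hs
    · rw [sign_neg hs, eq_comm, sign_eq_neg_one_iff] at hsign
      exact mul_pos_of_neg_of_neg hs hsign
    · rw [sign_pos hs, eq_comm, sign_eq_one_iff] at hsign
      exact mul_pos hs hsign
  set B := (((m + 1 : ℕ) : R[X]) * (X - C b) + ((n + 1 : ℕ) : R[X]) * (X - C a)) * g +
    (X - C a) * (X - C b) * derivative g with hB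
  have hd : p.derivative = (X - C a) ^ m * (X - C b) ^ n * B := by
    rw [hq, hg, hB]
    simp only [derivative_mul, derivative_pow, derivative_sub, derivative_X, derivative_C,
      sub_zero, mul_one, Nat.add_sub_cancel, map_natCast]
    ring
  obtain ⟨c, h1, h2, h3⟩ := PolyIVT.exists_root B a b hab (by
    simp only [hB, eval_add, eval_mul, eval_sub, eval_X, eval_C, eval_natCast, sub_self,
      mul_zero, zero_mul, zero_add, add_zero]
    have h1 : (0 : R) < ((m + 1 : ℕ) : R) * ((n + 1 : ℕ) : R) := by positivity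
    nlinarith [mul_pos (mul_pos h1 hpos) (mul_pos (sub_pos.2 hab) (sub_pos.2 hab))])
  exact ⟨c, h1, h2, by rw [hd, eval_mul, h3, mul_zero]⟩

/-- **Rolle's theorem.** -/
theorem rolle (p : R[X]) {a b : R} (hab : a < b) (ha : p.eval a = 0) (hb : p.eval b = 0) :
    ∃ c, a < c ∧ c < b ∧ p.derivative.eval c = 0 := by
  classical
  rcases eq_or_ne p 0 with rfl | hp
  · exact ⟨(a + b) / 2, by linarith, by linarith, by simp⟩
  set s := p.roots.toFinset.filter (a < ·) with hs
  have hbs : b ∈ s := by simp [hs, hp, hab, hb]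
  have hne : s.Nonempty := ⟨b, hbs⟩
  have hmem := s.min'_mem hne
  simp only [hs, Finset.mem_filter, Multiset.mem_toFinset, mem_roots hp, IsRoot.def] at hmem
  obtain ⟨c, h1, h2, h3⟩ := rolle_adjacent p hp hmem.2 ha hmem.1 fun c h1 h2 e =>
    h2.not_ge (Finset.min'_le _ _ (by simp [hs, hp, h1, e]))
  exact ⟨c, h1, h2.trans_le (Finset.min'_le _ _ hbs), h3⟩

theorem eval_ne_zero_of_derivative (p : R[X]) {a b : R} (ha : p.eval a = 0) (hne : a ≠ b)
    (h : ∀ c, min a b < c → c < max a b → p.derivative.eval c ≠ 0) : p.eval b ≠ 0 := by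
  intro hb
  rcases hne.lt_or_gt with hab | hab
  · obtain ⟨c, h1, h2, h3⟩ := rolle p hab ha hb
    exact h c (by rwa [min_eq_left hab.le]) (by rwa [max_eq_right hab.le]) h3
  · obtain ⟨c, h1, h2, h3⟩ := rolle p hab hb ha
    exact h c (by rwa [min_eq_right hab.le]) (by rwa [max_eq_left hab.le]) h3

/-- The sign on a side of a simple root. -/
theorem sign_eval_of_root (p : R[X]) {x y : R} (hx : p.eval x = 0)
    (hd : p.derivative.eval x ≠ 0) (hne : x ≠ y)
    (h : ∀ c, min x y < c → c < max x y → p.derivative.eval c ≠ 0) :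
    SignType.sign (p.eval y) =
      SignType.sign (y - x) * SignType.sign (p.derivative.eval x) := by
  obtain ⟨g, rfl⟩ : (X - C x) ∣ p := dvd_iff_isRoot.2 hx
  have hgx : (derivative ((X - C x) * g)).eval x = g.eval x := by simp [derivative_mul]
  have hgy : g.eval y ≠ 0 := fun e => eval_ne_zero_of_derivative _ hx hne h (by simp [e])
  have key : ∀ c, min x y < c → c < max x y → g.eval c ≠ 0 := fun c h1 h2 e =>
    eval_ne_zero_of_derivative ((X - C x) * g) hx (b := c)
      (by rintro rfl; rw [hgx] at hd; exact hd e)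
      (fun z z1 z2 => h z
        (lt_of_le_of_lt (le_min (min_le_left _ _) h1.le) z1)
        (lt_of_lt_of_le z2 (max_le (le_max_left _ _) h2.le)))
      (by simp [e])
  have hg : SignType.sign (g.eval y) = SignType.sign (g.eval x) := by
    rw [hgx] at hd
    rcases hne.lt_or_gt with hxy | hxy
    · refine (sign_eq_of_no_root g hxy.le hd hgy fun c h1 h2 => key c ?_ ?_).symm
      · rwa [min_eq_left hxy.le]
      · rwa [max_eq_right hxy.le]
    · refine sign_eq_of_no_root g hxy.le hgy hd fun c h1 h2 => key c ?_ ?_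
      · rwa [min_eq_right hxy.le]
      · rwa [max_eq_left hxy.le]
  rw [hgx, eval_mul, sign_mul, hg]
  simp

end ivt

/-- Far to the right a polynomial has the sign of its leading coefficient. -/
theorem exists_sign_atTop (p : R[X]) :
    ∃ B, ∀ x, B < x → SignType.sign (p.eval x) = SignType.sign p.leadingCoeff := by
  rcases eq_or_ne p 0 with rfl | hp
  · exact ⟨0, fun x _ => by simp⟩
  have hL : p.leadingCoeff ≠ 0 := leadingCoeff_ne_zero.2 hp
  rcases Nat.eq_zero_or_pos p.natDegree with h0 | h0
  · exact ⟨0, fun x _ => by rw [eq_C_of_natDegree_eq_zero h0, eval_C, leadingCoeff_C]⟩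
  set d := p.natDegree
  set S := ∑ i ∈ Finset.range d, |p.coeff i| with hS
  refine ⟨1 + S / |p.leadingCoeff|, fun x hx => ?_⟩
  have hLa : 0 < |p.leadingCoeff| := abs_pos.2 hL
  have hS0 : 0 ≤ S := Finset.sum_nonneg fun i _ => abs_nonneg _
  have hx1 : 1 < x := by have := div_nonneg hS0 hLa.le; linarith
  have hxS : S < |p.leadingCoeff| * x := by
    have : S / |p.leadingCoeff| < x := by linarith
    rw [div_lt_iff₀ hLa] at this
    linarith
  have hrest : |∑ i ∈ Finset.range d, p.coeff i * x ^ i| < |p.leadingCoeff| * x ^ d := by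
    have h1 : |∑ i ∈ Finset.range d, p.coeff i * x ^ i| ≤ S * x ^ (d - 1) := by
      refine (Finset.abs_sum_le_sum_abs _ _).trans ?_
      rw [hS, Finset.sum_mul]
      refine Finset.sum_le_sum fun i hi => ?_
      rw [abs_mul, abs_pow, abs_of_pos (show (0 : R) < x by linarith)]
      exact mul_le_mul_of_nonneg_left (pow_le_pow_right₀ hx1.le
        (Nat.le_sub_one_of_lt (Finset.mem_range.1 hi))) (abs_nonneg _)
    refine h1.trans_lt ?_
    calc S * x ^ (d - 1) < |p.leadingCoeff| * x * x ^ (d - 1) :=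
          mul_lt_mul_of_pos_right hxS (pow_pos (by linarith) _)
      _ = |p.leadingCoeff| * x ^ d := by
          rw [mul_assoc, ← pow_succ', Nat.sub_add_cancel h0]
  have he : p.eval x = p.leadingCoeff * x ^ d + ∑ i ∈ Finset.range d, p.coeff i * x ^ i := by
    rw [eval_eq_sum_range, Finset.sum_range_succ, add_comm]
    rfl
  rw [he]
  rcases hL.lt_or_gt with hL | hL
  · rw [sign_neg hL, sign_eq_neg_one_iff]
    rw [abs_of_neg hL] at hrest
    linarith [le_abs_self (∑ i ∈ Finset.range d, p.coeff i * x ^ i)]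
  · rw [sign_pos hL, sign_eq_one_iff]
    rw [abs_of_pos hL] at hrest
    linarith [neg_abs_le (∑ i ∈ Finset.range d, p.coeff i * x ^ i)]

/-- Far to the left the sign also depends on the parity of the degree. -/
theorem exists_sign_atBot (p : R[X]) :
    ∃ B, ∀ x, x < B →
      SignType.sign (p.eval x) = (-1) ^ p.natDegree * SignType.sign p.leadingCoeff := by
  obtain ⟨B, hB⟩ := exists_sign_atTop (p.comp (-X))
  refine ⟨-B, fun x hx => ?_⟩
  have h := hB (-x) (by linarith)
  rw [eval_comp, eval_neg, eval_X, neg_neg] at h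
  rw [h, leadingCoeff_comp (by simp), sign_mul, sign_pow]
  simp [mul_comm]

end Fermat.Agent.HilbertSeventeen
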