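import Fermat.Agent.QuadraticHauptsatz.Basic

/-!
# The pure subform theorem

A nonzero value of the pure part of a Pfister form may be taken as one of its entries.
-/

set_option autoImplicit false

noncomputable section

namespace Fermat.Agent.HilbertSeventeen

open Fermat.Agent.WittRat Fermat.Agent.MilnorKRat Fermat.Agent.QuadraticHauptsatz

variable {F : Type*} [Field F]

/-- The values of the pure part. -/
def IsPureValue : List Fˣ → F → Prop
  | [], c => c = 0
  | a :: l, c => ∃ p t, IsPureValue l p ∧ IsValue l t ∧ c = p + a * t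

theorem isValue_zero : ∀ l : List Fˣ, IsValue l (0 : F)
  | [] => ⟨0, by ring⟩
  | a :: l => ⟨0, 0, isValue_zero l, isValue_zero l, by ring⟩

theorem isValue_sq : ∀ (l : List Fˣ) (x : F), IsValue l (x ^ 2)
  | [], x => ⟨x, rfl⟩
  | a :: l, x => ⟨x ^ 2, 0, isValue_sq l x, isValue_zero l, by ring⟩

theorem isValue_mul_sq : ∀ (l : List Fˣ) {c : F}, IsValue l c → ∀ x, IsValue l (c * x ^ 2)
  | [], c, ⟨y, hy⟩, x => ⟨y * x, by rw [hy]; ring⟩
  | a :: l, c, ⟨s, t, hs, ht, hc⟩, x =>
    ⟨_, _, isValue_mul_sq l hs x, isValue_mul_sq l ht x, by rw [hc]; ring⟩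

theorem exists_pure_of_isValue : ∀ (l : List Fˣ) {c : F}, IsValue l c →
    ∃ w p, IsPureValue l p ∧ c = w ^ 2 + p
  | [], c, ⟨x, hx⟩ => ⟨x, 0, rfl, by rw [hx, add_zero]⟩
  | a :: l, c, ⟨s, t, hs, ht, hc⟩ => by
    obtain ⟨w, p, hp, hw⟩ := exists_pure_of_isValue l hs
    exact ⟨w, p + a * t, ⟨p, t, hp, ht, rfl⟩, by rw [hc, hw]; ring⟩

theorem pfisterClass_binary {x y e : Fˣ} (h : (x : F) + y = e) (l : List Fˣ) :
    pfisterClass (x :: y :: l) = pfisterClass (e :: (x * y) :: l) := by
  simp only [pfisterClass, map_add, scale_scale]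
  have h1 := scale_binary h (pfisterClass l)
  rw [mul_comm e (x * y)]
  rw [show pfisterClass l + scale y (pfisterClass l) +
      (scale x (pfisterClass l) + scale (x * y) (pfisterClass l)) =
      pfisterClass l + (scale x (pfisterClass l) + scale y (pfisterClass l)) +
        scale (x * y) (pfisterClass l) by abel, h1]
  abel

theorem pfisterClass_congr {a : Fˣ} {l l' : List Fˣ} (h : pfisterClass l = pfisterClass l') :
    pfisterClass (a :: l) = pfisterClass (a :: l') := by
  simp only [pfisterClass, h]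

/-- **The pure subform theorem.** -/
theorem exists_cons_of_isPureValue : ∀ (l : List Fˣ) (e : Fˣ), IsPureValue l (e : F) →
    ∃ τ : List Fˣ, τ.length + 1 = l.length ∧ pfisterClass l = pfisterClass (e :: τ)
  | [], e, h => absurd h e.ne_zero
  | a :: l, e, ⟨p, t, hp, ht, he⟩ => by
    rcases eq_or_ne t 0 with rfl | ht0
    · rw [mul_zero, add_zero] at he
      obtain ⟨τ, hτ, h⟩ := exists_cons_of_isPureValue l e (he ▸ hp)
      exact ⟨a :: τ, by rw [List.length_cons, List.length_cons, hτ],
        by rw [pfisterClass_congr h, pfisterClass_comm]⟩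
    set T := Units.mk0 t ht0
    have hT : pfisterClass ((a * T) :: l) = pfisterClass (a :: l) := by
      simp only [pfisterClass]
      rw [← scale_scale, scale_of_isValue l T ht]
    rcases eq_or_ne p 0 with rfl | hp0
    · rw [zero_add] at he
      exact ⟨l, rfl, by rw [show e = a * T from Units.ext he, hT]⟩
    obtain ⟨τ, hτ, h⟩ := exists_cons_of_isPureValue l (Units.mk0 p hp0) hp
    refine ⟨a * T * Units.mk0 p hp0 :: τ, by rw [List.length_cons, List.length_cons, hτ], ?_⟩
    rw [← hT, pfisterClass_congr h, pfisterClass_binary (e := e)]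
    simp [T, he, add_comm]

variable (h2 : (2 : F) ≠ 0)
include h2

/-- Roundness, converse: a similarity factor of the class is a value. -/
theorem isValue_of_scale_eq (l : List Fˣ) (b : Fˣ)
    (h : scale b (pfisterClass l) = pfisterClass l) : IsValue l (b : F) := by
  rw [pfisterClass_eq_cls, scale_cls] at h
  obtain ⟨e⟩ := (equivalent_iff_cls h2 _ _).2 h
  set i₀ : Fin (2 ^ l.length) := ⟨0, Nat.two_pow_pos _⟩
  set x := e (Pi.single i₀ 1)
  have hx := e.map_app (Pi.single i₀ 1)
  have hy : ∑ i, ((b * pfb l i : Fˣ) : F) * (Pi.single i₀ 1 : _ → F) i ^ 2 = b := by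
    rw [Finset.sum_eq_single i₀ (fun j _ hj => by simp [hj])
      (fun h => absurd (Finset.mem_univ _) h), Pi.single_eq_same]
    rw [show pfb l i₀ = 1 from pfb_zero l _]
    simp
  rw [diag_eq_sum, diag_eq_sum, hy] at hx
  have hv := isValue_pfb (RingHom.id F) l x
  simp only [RingHom.id_apply] at hv
  rw [hx] at hv
  rw [show l.map (mapUnits (RingHom.id F)) = l from
    (List.map_congr_left fun a _ => Units.ext rfl).trans (List.map_id l)] at hv
  exact hv

/-- A vanishing class has every value. -/
theorem isValue_of_eq_zero (l : List Fˣ) (h : pfisterClass l = 0) (c : F) : IsValue l c := by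
  rcases eq_or_ne c 0 with rfl | hc
  · exact isValue_zero l
  exact isValue_of_scale_eq h2 l (Units.mk0 c hc) (by rw [h, map_zero])

end Fermat.Agent.HilbertSeventeen
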