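import Fermat.Agent.HilbertSeventeen.IVTRealClosed
import Fermat.Agent.HilbertSeventeen.PfisterBound

/-!
# Real closed fields

By Galois theory `R(√-1)` is algebraically closed for a real closed `R`; hence `R` has the
intermediate value property, and Artin's theorem with Pfister's bound holds over `R`.
-/

set_option autoImplicit false
set_option linter.style.haveILetI false

noncomputable section

namespace Fermat.Agent.HilbertSeventeen

open Module Polynomial

variable {R : Type*} [Field R] [IsRealClosed R]

theorem not_isSquare_neg_one : ¬ IsSquare (-1 : R) :=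
  fun h => IsSemireal.not_isSumSq_neg_one R h.isSumSq

/-- A real closed field has no extension of odd degree but itself. -/
theorem finrank_eq_one_of_odd {E : Type*} [Field E] [Algebra R E] [FiniteDimensional R E]
    (h : Odd (finrank R E)) : finrank R E = 1 := by
  obtain ⟨α, hα⟩ := Field.exists_primitive_element R E
  have hint := IsIntegral.of_finite R α
  have hd : (minpoly R α).natDegree = finrank R E := by
    rw [← IntermediateField.adjoin.finrank hint, hα, IntermediateField.finrank_top']
  rw [← hd] at h ⊢
  obtain ⟨x, hx⟩ := IsRealClosed.exists_isRoot_of_odd_natDegree h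
  by_contra hne
  exact (minpoly.irreducible hint).not_isRoot_of_natDegree_ne_one hne hx

theorem exists_sq_mul (z : FA.Pfister.Gauss R) : ∃ w : FA.Pfister.Gauss R, w * w = z := by
  have h := not_isSquare_neg_one (R := R)
  haveI := Fact.mk (FA.Pfister.irreducible_gauss h)
  have hsq := IsRealClosed.isSquare_or_isSquare_neg (R := R)
  haveI := hasMemOrNegMem_squaresCone hsq
  classical
  let _ : LinearOrder R := LinearOrder.mkOfAddGroupCone (squaresCone hsq)
  haveI : IsOrderedRing R := IsOrderedRing.mkOfCone (squaresCone hsq)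
  have hr := FA.Pfister.root_sq (F := R)
  set of := AdjoinRoot.of (X ^ 2 + 1 : R[X])
  set r := AdjoinRoot.root (X ^ 2 + 1 : R[X])
  obtain ⟨a, b, rfl⟩ := FA.Pfister.exists_coords z
  rcases eq_or_ne b 0 with rfl | hb
  · rcases hsq a with ⟨s, hs⟩ | ⟨s, hs⟩
    · exact ⟨of s, by rw [map_zero, zero_mul, add_zero, ← map_mul, hs]⟩
    · refine ⟨of s * r, ?_⟩
      rw [map_zero, zero_mul, add_zero, show a = -(s * s) by linear_combination -hs, map_neg,
        map_mul]
      linear_combination (of s) ^ 2 * hr
  obtain ⟨m, hm⟩ := IsSquare.of_nonneg (R := R) (x := a * a + b * b)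
    (add_nonneg (mul_self_nonneg a) (mul_self_nonneg b))
  have hab : |a| ≤ |m| := sq_le_sq.1 (by nlinarith [mul_self_nonneg b])
  obtain ⟨x, hx⟩ := IsSquare.of_nonneg (R := R) (x := (a + |m|) / 2)
    (by linarith [neg_abs_le a])
  have hx0 : x ≠ 0 := fun e => hb (by
    rw [e, mul_zero, div_eq_zero_iff] at hx
    have ha : a = -|m| := by linarith [hx.resolve_right two_ne_zero]
    have : b * b = 0 := by linear_combination hm - (a - |m|) * ha - abs_mul_abs_self m
    exact mul_self_eq_zero.1 this)
  set y := b / (2 * x)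
  have h1 : x * x - y * y = a := by
    have e : 4 * (x * x) * (x * x - y * y - a) = 0 := by
      have hy : 2 * x * y = b := by simp only [y]; field_simp
      linear_combination (-(2 * x * y + b)) * hy + (-4 * (x * x) + 2 * (a - |m|)) * hx -
        hm + abs_mul_abs_self m
    simpa [hx0, sub_eq_zero] using e
  have h2 : 2 * x * y = b := by simp only [y]; field_simp
  refine ⟨of x + of y * r, ?_⟩
  rw [← h1, ← h2]
  simp only [map_sub, map_mul, map_ofNat]
  linear_combination (of y) ^ 2 * hr

/-- A finite Galois extension of a real closed field containing `√-1` has degree `2`. -/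
theorem finrank_galois_eq_two {E : Type*} [Field E] [Algebra R E] [FiniteDimensional R E]
    [IsGalois R E] (φ : FA.Pfister.Gauss R →ₐ[R] E) : finrank R E = 2 := by
  haveI := Fact.mk (FA.Pfister.irreducible_gauss (not_isSquare_neg_one (R := R)))
  haveI : CharZero E := charZero_of_injective_ringHom (algebraMap R E).injective
  have hC : finrank R (FA.Pfister.Gauss R) = 2 := by
    rw [(AdjoinRoot.powerBasis (FA.Pfister.monic_gauss (F := R)).ne_zero).finrank,
      AdjoinRoot.powerBasis_dim, FA.Pfister.natDegree_gauss]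
  set K : IntermediateField R E := φ.fieldRange
  have hK : finrank R K = 2 := by
    rw [← hC]
    exact (AlgEquiv.ofInjectiveField φ).toLinearEquiv.finrank_eq.symm
  haveI := Fact.mk Nat.prime_two
  -- the group is a 2-group
  obtain ⟨k, hk⟩ : ∃ k, Nat.card (E ≃ₐ[R] E) = 2 ^ k := by
    obtain ⟨P⟩ : Nonempty (Sylow 2 (E ≃ₐ[R] E)) := inferInstance
    set F₀ := IntermediateField.fixedField (P : Subgroup (E ≃ₐ[R] E))
    have hodd : Odd (finrank R F₀) := by
      have h1 := finrank_mul_finrank R F₀ E
      rw [IntermediateField.finrank_fixedField_eq_card, ← IsGalois.card_aut_eq_finrank R E,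
        ← (P : Subgroup (E ≃ₐ[R] E)).index_mul_card] at h1
      rw [Nat.mul_right_cancel Nat.card_pos h1, ← Nat.not_even_iff_odd, even_iff_two_dvd]
      exact P.not_dvd_index
    obtain ⟨k, hk⟩ := IsPGroup.iff_card.1 P.2
    refine ⟨k, ?_⟩
    have h1 := finrank_mul_finrank R F₀ E
    rw [finrank_eq_one_of_odd hodd, one_mul, IntermediateField.finrank_fixedField_eq_card,
      hk] at h1
    rw [IsGalois.card_aut_eq_finrank, h1]
  have hkey : finrank R E = 2 ^ k := by rw [← IsGalois.card_aut_eq_finrank, hk]
  have hmul := finrank_mul_finrank R K E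
  rw [hK, hkey] at hmul
  obtain ⟨j, rfl⟩ : ∃ j, k = j + 1 := ⟨k - 1, by
    rcases Nat.eq_zero_or_pos k with rfl | h
    · simp at hmul
    · omega⟩
  rw [pow_succ] at hmul hkey
  rcases Nat.eq_zero_or_pos j with rfl | hj
  · simpa using hkey
  exfalso
  set H := K.fixingSubgroup
  have hH : Nat.card H = 2 ^ j := by
    rw [IsGalois.card_fixingSubgroup_eq_finrank]; linarith
  obtain ⟨H₁, hH₁⟩ := Sylow.exists_subgroup_card_pow_prime (G := H) 2 (n := j - 1)
    (by rw [hH]; exact pow_dvd_pow 2 (by omega))
  set H₂ := H₁.map H.subtype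
  have hH₂ : Nat.card H₂ = 2 ^ (j - 1) := by
    rw [← hH₁]
    exact Nat.card_congr (H₁.equivMapOfInjective H.subtype Subtype.val_injective).toEquiv.symm
  set F₂ := IntermediateField.fixedField H₂
  have hle : K ≤ F₂ := (IntermediateField.le_iff_le _ _).2 (Subgroup.map_subtype_le H₁)
  have hF₂ : finrank R F₂ = 4 := by
    have h1 := finrank_mul_finrank R F₂ E
    rw [IntermediateField.finrank_fixedField_eq_card, hH₂, hkey,
      show (2 : ℕ) ^ j * 2 = 4 * 2 ^ (j - 1) by
        conv_lhs => rw [← Nat.sub_add_cancel hj, pow_succ]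
        ring] at h1
    exact Nat.mul_right_cancel (Nat.two_pow_pos _) h1
  set F₃ : IntermediateField K E := IntermediateField.extendScalars hle
  have hF₃ : finrank K F₃ = 2 := by
    have h1 := finrank_mul_finrank R K F₃
    have h2 : finrank R F₃ = 4 := hF₂
    rw [hK, h2] at h1
    omega
  obtain ⟨α, hα⟩ : ∃ α : F₃, α ∉ Set.range (algebraMap K F₃) := by
    by_contra! h
    have h1 : finrank K F₃ = 1 := by
      rw [← IntermediateField.finrank_top' (F := K) (E := F₃),
        show (⊤ : IntermediateField K F₃) = ⊥ from eq_bot_iff.2 fun x _ =>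
          IntermediateField.mem_bot.2 (h x), IntermediateField.finrank_bot]
    exact absurd (h1.symm.trans hF₃) (by norm_num)
  have hint := IsIntegral.of_finite K α
  have hdeg : (minpoly K α).natDegree = 2 := by
    have h1 : (minpoly K α).natDegree ∣ 2 := hF₃ ▸ minpoly.degree_dvd hint
    rcases (Nat.dvd_prime Nat.prime_two).1 h1 with h | h
    · exact absurd (minpoly.natDegree_eq_one_iff.1 h) hα
    · exact h
  have hsq : ∀ z : K, ∃ w : K, w * w = z := fun z => by
    obtain ⟨c, hc⟩ := (AlgEquiv.ofInjectiveField φ).surjective z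
    obtain ⟨w, hw⟩ := exists_sq_mul c
    exact ⟨AlgEquiv.ofInjectiveField φ w,
      ((map_mul (AlgEquiv.ofInjectiveField φ) w w).symm.trans (congrArg _ hw)).trans hc⟩
  have hp : ∀ x : K, (minpoly K α).eval x =
      x ^ 2 + (minpoly K α).coeff 1 * x + (minpoly K α).coeff 0 := fun x => by
    conv_lhs => rw [(minpoly.monic hint).as_sum, hdeg]
    simp [Finset.sum_range_succ]
    ring
  obtain ⟨s, hs⟩ := hsq ((minpoly K α).coeff 1 ^ 2 - 4 * (minpoly K α).coeff 0)
  refine (minpoly.irreducible hint).not_isRoot_of_natDegree_ne_one (by rw [hdeg]; norm_num)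
    (x := (-(minpoly K α).coeff 1 + s) / 2) ?_
  show (minpoly K α).eval _ = 0
  rw [hp]
  field_simp
  linear_combination hs

/-- `R(√-1)` is algebraically closed. -/
theorem isAlgClosed_gauss :
    letI := Fact.mk (FA.Pfister.irreducible_gauss (not_isSquare_neg_one (R := R)))
    IsAlgClosed (FA.Pfister.Gauss R) := by
  haveI := Fact.mk (FA.Pfister.irreducible_gauss (not_isSquare_neg_one (R := R)))
  haveI : Module.Finite R (FA.Pfister.Gauss R) := FA.Pfister.monic_gauss.finite_adjoinRoot
  refine IsAlgClosed.of_exists_root _ fun p hm hp => ?_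
  haveI := Fact.mk hp
  haveI : Module.Finite (FA.Pfister.Gauss R) (AdjoinRoot p) := hm.finite_adjoinRoot
  haveI : Module.Finite R (AdjoinRoot p) := Module.Finite.trans (FA.Pfister.Gauss R) _
  let f : AdjoinRoot p →ₐ[R] AlgebraicClosure R := IsAlgClosed.lift
  set E := IntermediateField.normalClosure R (AdjoinRoot p) (AlgebraicClosure R)
  let g : AdjoinRoot p →ₐ[R] E :=
    f.codRestrict E.toSubalgebra fun x =>
      f.fieldRange_le_normalClosure ⟨x, rfl⟩
  haveI : CharZero R := inferInstance
  haveI : IsGalois R E := IsGalois.mk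
  have h2 := finrank_galois_eq_two
    (g.comp (IsScalarTower.toAlgHom R (FA.Pfister.Gauss R) (AdjoinRoot p)))
  have hle : finrank R (AdjoinRoot p) ≤ finrank R E :=
    LinearMap.finrank_le_finrank_of_injective (f := g.toLinearMap) g.toRingHom.injective
  have hC : finrank R (FA.Pfister.Gauss R) = 2 := by
    rw [(AdjoinRoot.powerBasis (FA.Pfister.monic_gauss (F := R)).ne_zero).finrank,
      AdjoinRoot.powerBasis_dim, FA.Pfister.natDegree_gauss]
  rw [h2, ← finrank_mul_finrank R (FA.Pfister.Gauss R) (AdjoinRoot p), hC,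
    (AdjoinRoot.powerBasis hp.ne_zero).finrank, AdjoinRoot.powerBasis_dim] at hle
  exact exists_root_of_degree_eq_one (degree_eq_natDegree hp.ne_zero ▸ by
    have := hp.natDegree_pos
    rw [show p.natDegree = 1 by omega]; rfl)

/-- **An ordered real closed field has the intermediate value property.** -/
theorem polyIVT_of_isRealClosed [LinearOrder R] [IsStrictOrderedRing R] : PolyIVT R := by
  refine polyIVT_of_forall fun q hm hq hd => ?_
  haveI := Fact.mk (FA.Pfister.irreducible_gauss (not_isSquare_neg_one (R := R)))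
  haveI : Module.Finite R (FA.Pfister.Gauss R) := FA.Pfister.monic_gauss.finite_adjoinRoot
  haveI := isAlgClosed_gauss (R := R)
  haveI := Fact.mk hq
  obtain ⟨z, hz⟩ := IsAlgClosed.exists_aeval_eq_zero (FA.Pfister.Gauss R) q hq.degree_pos.ne'
  have hq2 : q.natDegree = 2 := by
    have h1 : (minpoly R z).natDegree ≤ finrank R (FA.Pfister.Gauss R) := minpoly.natDegree_le z
    rw [(AdjoinRoot.powerBasis (FA.Pfister.monic_gauss (F := R)).ne_zero).finrank,
      AdjoinRoot.powerBasis_dim, FA.Pfister.natDegree_gauss,
      ← minpoly.eq_of_irreducible_of_monic hq hz hm] at h1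
    omega
  have hq' : q = X ^ 2 + C (q.coeff 1) * X + C (q.coeff 0) := by
    conv_lhs => rw [hm.as_sum, hq2]
    simp [Finset.sum_range_succ]
    ring
  have hev : ∀ x : R, q.eval x = x ^ 2 + q.coeff 1 * x + q.coeff 0 := fun x => by
    conv_lhs => rw [hq']
    simp only [eval_add, eval_mul, eval_pow, eval_X, eval_C]
  rcases IsRealClosed.isSquare_or_isSquare_neg (q.coeff 1 ^ 2 - 4 * q.coeff 0) with
    ⟨s, hs⟩ | ⟨s, hs⟩
  · refine absurd ?_ (hq.not_isRoot_of_natDegree_ne_one (by omega)
      (x := (-q.coeff 1 + s) / 2))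
    show q.eval _ = 0
    rw [hev]
    field_simp
    linear_combination -hs
  · have hs0 : s ≠ 0 := by
      rintro rfl
      refine hq.not_isRoot_of_natDegree_ne_one (by omega) (x := -q.coeff 1 / 2) ?_
      show q.eval _ = 0
      rw [hev]
      field_simp
      linear_combination hs
    set t := AdjoinRoot.root q
    have ht : t ^ 2 + AdjoinRoot.of q (q.coeff 1) * t + AdjoinRoot.of q (q.coeff 0) = 0 := by
      have h0 := AdjoinRoot.eval₂_root q
      conv at h0 => lhs; arg 3; rw [hq']
      simpa using h0
    have hne : AdjoinRoot.of q s ≠ 0 := (_root_.map_ne_zero _).2 hs0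
    have e : -1 = (2 * t + AdjoinRoot.of q (q.coeff 1)) / AdjoinRoot.of q s *
        ((2 * t + AdjoinRoot.of q (q.coeff 1)) / AdjoinRoot.of q s) := by
      have hs' := congrArg (AdjoinRoot.of q) hs
      simp only [map_neg, map_sub, map_mul, map_pow, map_ofNat] at hs'
      field_simp
      linear_combination -(4 * ht) + hs'
    rw [e]
    exact IsSumSq.mul_self _

/-- **Real closed fields are the ordered fields with the intermediate value property.** -/
theorem isRealClosed_iff_polyIVT (K : Type*) [Field K] [LinearOrder K] [IsStrictOrderedRing K] :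
    IsRealClosed K ↔ PolyIVT K :=
  ⟨fun _ => polyIVT_of_isRealClosed, fun _ => isRealClosed_of_polyIVT K⟩

/-- **Artin's theorem with Pfister's bound over a real closed field.** -/
theorem realClosed_seventeen_bound {K : Type*} [Field K] [LinearOrder K] [IsStrictOrderedRing K]
    [IsRealClosed K] {n : ℕ} (f : MvPolynomial (Fin n) K) :
    (∀ x : Fin n → K, 0 ≤ MvPolynomial.eval x f) ↔
      FA.Pfister.IsSqSum (2 ^ n)
        (algebraMap _ (FractionRing (MvPolynomial (Fin n) K)) f) := by
  haveI := polyIVT_of_isRealClosed (R := K)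
  refine ⟨fun h => ?_, fun ⟨g, hg⟩ =>
    (artin_seventeen f).1 (hg ▸ IsSumSq.sum_sq Finset.univ g)⟩
  haveI := Fact.mk (FA.Pfister.irreducible_gauss (not_isSquare_neg_one (R := K)))
  haveI := isAlgClosed_gauss (R := K)
  have hneg : ¬ IsSquare (-1 : FractionRing (MvPolynomial (Fin n) K)) := fun hh => by
    have h1 : IsSumSq (algebraMap (MvPolynomial (Fin n) K)
        (FractionRing (MvPolynomial (Fin n) K)) (-1)) := by
      rw [map_neg, map_one]
      exact hh.isSumSq
    have := (artin_seventeen (-1 : MvPolynomial (Fin n) K)).1 h1 0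
    norm_num at this
  haveI : CharZero (FractionRing (MvPolynomial (Fin n) K)) :=
    charZero_of_injective_ringHom
      (IsFractionRing.injective (MvPolynomial (Fin n) K) (FractionRing (MvPolynomial (Fin n) K)))
  exact isSqSum_two_pow_of_isSumSq hneg two_ne_zero
    (isC_gauss_fractionRing n K (FA.Pfister.Gauss K)
      (i := AdjoinRoot.root _) (by rw [← sq]; exact FA.Pfister.root_sq)
      (fun c => FA.Pfister.exists_coords c) hneg)
    ((artin_seventeen f).2 h)

end Fermat.Agent.HilbertSeventeen
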