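import Fermat.Agent.HilbertSeventeen.PolySign
import Fermat.Agent.HilbertSeventeen.Closure

/-!
# Sign determination for one variable

If two specialisations of the coefficients give the leading coefficients of a closed family the
same signs, then the roots of the specialised families correspond in order and with the same
signs; so every sign condition realised in one field is realised in the other.
-/

set_option autoImplicit false
set_option linter.unusedSectionVars false

noncomputable section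

open Polynomial

namespace Fermat.Agent.HilbertSeventeen

variable {A : Type*} [CommRing A]
variable {R : Type*} [Field R] [LinearOrder R] [IsStrictOrderedRing R]
variable {S : Type*} [Field S] [LinearOrder S] [IsStrictOrderedRing S]

/-- The roots of the nonzero specialisations of the members of degree at most `d`. -/
def rootSet (φ : A →+* R) (T : Finset A[X]) (d : ℕ) : Set R :=
  {t | ∃ q ∈ T, q.natDegree ≤ d ∧ q.map φ ≠ 0 ∧ (q.map φ).eval t = 0}

theorem rootSet_finite (φ : A →+* R) (T : Finset A[X]) (d : ℕ) : (rootSet φ T d).Finite := by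
  classical
  refine ((T.biUnion fun q => (q.map φ).roots.toFinset).finite_toSet).subset ?_
  rintro t ⟨q, hq, -, h0, ht⟩
  simp only [Finset.mem_coe, Finset.mem_biUnion, Multiset.mem_toFinset]
  exact ⟨q, hq, (mem_roots h0).2 ht⟩

theorem rootSet_mono (φ : A →+* R) (T : Finset A[X]) {d e : ℕ} (h : d ≤ e) :
    rootSet φ T d ⊆ rootSet φ T e := fun _ ⟨q, hq, hd, h0, ht⟩ => ⟨q, hq, hd.trans h, h0, ht⟩

theorem map_eraseLead {K : Type*} [CommRing K] (f : A →+* K) {q : A[X]}
    (h : f q.leadingCoeff = 0) : q.eraseLead.map f = q.map f := by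
  conv_rhs => rw [← eraseLead_add_C_mul_X_pow q]
  rw [Polynomial.map_add, Polynomial.map_mul, map_C, h, map_zero, zero_mul, add_zero]

theorem map_derivative_ne_zero (φ : A →+* R) {q : A[X]} (hn : 0 < q.natDegree)
    (h : φ q.leadingCoeff ≠ 0) : (derivative q).map φ ≠ 0 := by
  intro e
  have := congrArg (fun p : R[X] => p.coeff (q.natDegree - 1)) e
  simp only [coeff_map, coeff_derivative, coeff_zero, Nat.sub_add_cancel hn, map_mul,
    coeff_natDegree] at this
  rcases mul_eq_zero.1 this with e | e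
  · exact h e
  · rw [map_add, map_natCast, map_one] at e
    exact Nat.cast_add_one_ne_zero _ e

theorem eval_ne_zero_of_natDegree_zero (φ : A →+* R) {q : A[X]} (hd : q.natDegree ≤ 0)
    (h0 : q.map φ ≠ 0) (t : R) : (q.map φ).eval t ≠ 0 := by
  rw [eq_C_of_natDegree_eq_zero (Nat.le_zero.1 hd), map_C] at h0 ⊢
  rw [eval_C]
  exact fun e => h0 (by rw [e, map_zero])

/-- Two specialisations of a closed family with equal signs of the leading coefficients. -/
structure Similar (φ : A →+* R) (ψ : A →+* S) (T : Finset A[X]) : Prop where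
  closed : ClosedAbove 0 T
  sign_lead : ∀ q ∈ T,
    SignType.sign (φ q.leadingCoeff) = SignType.sign (ψ q.leadingCoeff)

namespace Similar

variable {φ : A →+* R} {ψ : A →+* S} {T : Finset A[X]} (hT : Similar φ ψ T)
include hT

protected theorem symm : Similar ψ φ T := ⟨hT.closed, fun q hq => (hT.sign_lead q hq).symm⟩

theorem lead_eq_zero_iff {q : A[X]} (hq : q ∈ T) :
    φ q.leadingCoeff = 0 ↔ ψ q.leadingCoeff = 0 := by
  rw [← sign_eq_zero_iff, hT.sign_lead q hq, sign_eq_zero_iff]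

/-- A member with nonzero specialisation may be replaced by one of true degree. -/
theorem exists_lead_ne_zero {q : A[X]} (hq : q ∈ T) (h0 : q.map φ ≠ 0) :
    ∃ q' ∈ T, q'.natDegree ≤ q.natDegree ∧ φ q'.leadingCoeff ≠ 0 ∧ q'.map φ = q.map φ ∧
      q'.map ψ = q.map ψ := by
  induction hd : q.natDegree using Nat.strong_induction_on generalizing q with
  | _ d ih =>
  by_cases h : φ q.leadingCoeff = 0
  · have h' := (hT.lead_eq_zero_iff hq).1 h
    rcases Nat.eq_zero_or_pos q.natDegree with hn | hn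
    · exact absurd (by
        rw [eq_C_of_natDegree_eq_zero hn, map_C]
        rw [leadingCoeff, hn] at h
        rw [h, map_zero]) h0
    have hlt : q.eraseLead.natDegree < d :=
      (eraseLead_natDegree_le q).trans_lt (by omega)
    obtain ⟨q', hq', h1, h2, h3, h4⟩ :=
      ih _ hlt (hT.closed q hq hn).2.1 (by rwa [map_eraseLead φ h]) rfl
    exact ⟨q', hq', h1.trans hlt.le, h2, h3.trans (map_eraseLead φ h),
      h4.trans (map_eraseLead ψ h')⟩
  · exact ⟨q, hq, hd.le, h, rfl, rfl⟩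

theorem map_ne_zero {q : A[X]} (hq : q ∈ T) (h0 : q.map φ ≠ 0) : q.map ψ ≠ 0 := by
  obtain ⟨q', hq', -, h, -, e⟩ := hT.exists_lead_ne_zero hq h0
  rw [← e]
  intro h'
  have hc := congrArg (fun p : S[X] => p.coeff q'.natDegree) h'
  simp only [coeff_map, coeff_natDegree, coeff_zero] at hc
  exact h ((hT.lead_eq_zero_iff hq').2 hc)

theorem map_eq_zero {q : A[X]} (hq : q ∈ T) (h0 : q.map φ = 0) : q.map ψ = 0 := by
  by_contra h
  exact hT.symm.map_ne_zero hq h h0

end Similar

theorem sign_sq_cancel {x : R} (hx : x ≠ 0) (m : ℕ) (y : R) :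
    SignType.sign y = SignType.sign x ^ m * SignType.sign (x ^ m * y) := by
  rcases hx.lt_or_gt with h | h
  · rw [sign_mul, sign_pow, sign_neg h, ← mul_assoc, ← pow_add, ← two_mul, pow_mul]
    simp
  · rw [sign_mul, sign_pow, sign_pos h]
    simp

theorem eval_pseudoRem (φ : A →+* R) {p q : A[X]} (hq : 0 < q.natDegree) :
    ∃ m : ℕ, ∀ t, (q.map φ).eval t = 0 →
      φ q.leadingCoeff ^ m * (p.map φ).eval t = ((pseudoRem p q).map φ).eval t := by
  obtain ⟨m, h, -, e⟩ := pseudoRem_spec p hq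
  refine ⟨m, fun t ht => ?_⟩
  have := congrArg (fun r : A[X] => (r.map φ).eval t) e
  simpa [ht] using this

/-- An order and sign preserving correspondence of the roots up to degree `d`. -/
structure Match (φ : A →+* R) (ψ : A →+* S) (T : Finset A[X]) (d : ℕ) where
  /-- The correspondence. -/
  M : R → S → Prop
  mem : ∀ {z w}, M z w → z ∈ rootSet φ T d ∧ w ∈ rootSet ψ T d
  left : ∀ {z}, z ∈ rootSet φ T d → ∃ w, M z w
  right : ∀ {w}, w ∈ rootSet ψ T d → ∃ z, M z w
  sign_eq : ∀ {z w}, M z w → ∀ p ∈ T, p.natDegree ≤ d →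
    SignType.sign ((p.map φ).eval z) = SignType.sign ((p.map ψ).eval w)
  lt_iff : ∀ {z w z' w'}, M z w → M z' w' → (z < z' ↔ w < w')

namespace Match

variable {φ : A →+* R} {ψ : A →+* S} {T : Finset A[X]} {d : ℕ}

/-- The inverse correspondence. -/
protected def symm (m : Match φ ψ T d) : Match ψ φ T d where
  M w z := m.M z w
  mem h := (m.mem h).symm
  left h := m.right h
  right h := m.left h
  sign_eq h p hp hd := (m.sign_eq h p hp hd).symm
  lt_iff h h' := (m.lt_iff h h').symm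

/-- Points in the same position with respect to the corresponding roots. -/
def Rel (m : Match φ ψ T d) (t : R) (u : S) : Prop :=
  ∀ z w, m.M z w → (z < t ↔ w < u) ∧ (t < z ↔ u < w)

theorem Rel.symm {m : Match φ ψ T d} {t : R} {u : S} (h : m.Rel t u) : m.symm.Rel u t :=
  fun w z hm => ⟨(h z w hm).1.symm, (h z w hm).2.symm⟩

theorem rel_of_mem (m : Match φ ψ T d) {t : R} {u : S} (h : m.M t u) : m.Rel t u :=
  fun _ _ hm => ⟨m.lt_iff hm h, m.lt_iff h hm⟩

theorem Rel.matched {m : Match φ ψ T d} {t : R} {u : S} (h : m.Rel t u)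
    (ht : t ∈ rootSet φ T d) : m.M t u := by
  obtain ⟨w, hw⟩ := m.left ht
  have h' := h t w hw
  have : w = u := le_antisymm (not_lt.1 fun e => lt_irrefl t (h'.2.2 e))
    (not_lt.1 fun e => lt_irrefl t (h'.1.2 e))
  exact this ▸ hw

theorem exists_rel (m : Match φ ψ T d) (t : R) : ∃ u, m.Rel t u := by
  by_cases ht : t ∈ rootSet φ T d
  · obtain ⟨u, hu⟩ := m.left ht
    exact ⟨u, m.rel_of_mem hu⟩
  obtain ⟨u, h1, h2⟩ := Set.Finite.exists_between'
    (s := {w | ∃ z, z < t ∧ m.M z w}) (t := {w | ∃ z, t < z ∧ m.M z w})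
    ((rootSet_finite ψ T d).subset fun w ⟨_, _, h⟩ => (m.mem h).2)
    ((rootSet_finite ψ T d).subset fun w ⟨_, _, h⟩ => (m.mem h).2)
    fun w ⟨z, hz, h⟩ w' ⟨z', hz', h'⟩ => (m.lt_iff h h').1 (hz.trans hz')
  refine ⟨u, fun z w hm => ?_⟩
  rcases lt_trichotomy z t with hz | hz | hz
  · exact ⟨iff_of_true hz (h1 w ⟨z, hz, hm⟩),
      iff_of_false hz.not_gt (h1 w ⟨z, hz, hm⟩).not_gt⟩
  · exact absurd (m.mem hm).1 (hz ▸ ht)
  · exact ⟨iff_of_false hz.not_gt (h2 w ⟨z, hz, hm⟩).not_gt,
      iff_of_true hz (h2 w ⟨z, hz, hm⟩)⟩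

variable [PolyIVT R] [PolyIVT S]

/-- In corresponding gaps the signs agree. -/
theorem Rel.sign_eq {m : Match φ ψ T d} {t : R} {u : S} (h : m.Rel t u) (hT : Similar φ ψ T)
    {p : A[X]} (hp : p ∈ T) (hd : p.natDegree ≤ d) :
    SignType.sign ((p.map φ).eval t) = SignType.sign ((p.map ψ).eval u) := by
  by_cases ht : t ∈ rootSet φ T d
  · exact m.sign_eq (h.matched ht) p hp hd
  have hu : u ∉ rootSet ψ T d := fun hu => ht (m.mem (h.symm.matched hu : m.M t u)).1
  by_cases h0 : p.map φ = 0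
  · simp [h0, hT.map_eq_zero hp h0]
  obtain ⟨q, hq, hqd, hlead, e1, e2⟩ := hT.exists_lead_ne_zero hp h0
  rw [← e1] at h0 ⊢
  rw [← e2]
  replace hqd := hqd.trans hd
  have h0' := hT.map_ne_zero hq h0
  have hlead' : ψ q.leadingCoeff ≠ 0 := (hT.lead_eq_zero_iff hq).not.1 hlead
  have notRoot : ∀ c, c ∉ rootSet φ T d → (q.map φ).eval c ≠ 0 :=
    fun c hc e => hc ⟨q, hq, hqd, h0, e⟩
  have notRoot' : ∀ c, c ∉ rootSet ψ T d → (q.map ψ).eval c ≠ 0 :=
    fun c hc e => hc ⟨q, hq, hqd, h0', e⟩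
  set L := {z ∈ rootSet φ T d | z < t}
  set G := {z ∈ rootSet φ T d | t < z}
  have hLfin : L.Finite := (rootSet_finite φ T d).subset fun z hz => hz.1
  have hGfin : G.Finite := (rootSet_finite φ T d).subset fun z hz => hz.1
  rcases L.eq_empty_or_nonempty with hL | hL
  · -- left of all roots
    obtain ⟨B, hB⟩ := exists_sign_atBot (q.map φ)
    obtain ⟨B', hB'⟩ := exists_sign_atBot (q.map ψ)
    obtain ⟨x, hx⟩ := exists_lt (min B t)
    obtain ⟨y, hy⟩ := exists_lt (min B' u)
    have hxt : x < t := hx.trans_le (min_le_right _ _)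
    have hyu : y < u := hy.trans_le (min_le_right _ _)
    have hnone : ∀ c, c < t → c ∉ rootSet φ T d := fun c hc hm => by
      have : c ∈ L := ⟨hm, hc⟩
      simp [hL] at this
    have hnone' : ∀ c, c < u → c ∉ rootSet ψ T d := fun c hc hm => by
      obtain ⟨z, hz⟩ := m.right hm
      exact hnone z ((h z c hz).1.2 hc) (m.mem hz).1
    rw [← sign_eq_of_no_root _ hxt.le (notRoot x (hnone x hxt)) (notRoot t ht)
        fun c _ hc => notRoot c (hnone c hc),
      ← sign_eq_of_no_root _ hyu.le (notRoot' y (hnone' y hyu)) (notRoot' u hu)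
        fun c _ hc => notRoot' c (hnone' c hc),
      hB x (hx.trans_le (min_le_left _ _)), hB' y (hy.trans_le (min_le_left _ _)),
      natDegree_map_of_leadingCoeff_ne_zero φ hlead,
      natDegree_map_of_leadingCoeff_ne_zero ψ hlead',
      leadingCoeff_map_of_leadingCoeff_ne_zero φ hlead,
      leadingCoeff_map_of_leadingCoeff_ne_zero ψ hlead', hT.sign_lead q hq]
  rcases G.eq_empty_or_nonempty with hG | hG
  · -- right of all roots
    obtain ⟨B, hB⟩ := exists_sign_atTop (q.map φ)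
    obtain ⟨B', hB'⟩ := exists_sign_atTop (q.map ψ)
    obtain ⟨x, hx⟩ := exists_gt (max B t)
    obtain ⟨y, hy⟩ := exists_gt (max B' u)
    have hxt : t < x := (le_max_right _ _).trans_lt hx
    have hyu : u < y := (le_max_right _ _).trans_lt hy
    have hnone : ∀ c, t < c → c ∉ rootSet φ T d := fun c hc hm => by
      have : c ∈ G := ⟨hm, hc⟩
      simp [hG] at this
    have hnone' : ∀ c, u < c → c ∉ rootSet ψ T d := fun c hc hm => by
      obtain ⟨z, hz⟩ := m.right hm
      exact hnone z ((h z c hz).2.2 hc) (m.mem hz).1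
    rw [sign_eq_of_no_root _ hxt.le (notRoot t ht) (notRoot x (hnone x hxt))
        fun c hc _ => notRoot c (hnone c hc),
      sign_eq_of_no_root _ hyu.le (notRoot' u hu) (notRoot' y (hnone' y hyu))
        fun c hc _ => notRoot' c (hnone' c hc),
      hB x ((le_max_left _ _).trans_lt hx), hB' y ((le_max_left _ _).trans_lt hy),
      leadingCoeff_map_of_leadingCoeff_ne_zero φ hlead,
      leadingCoeff_map_of_leadingCoeff_ne_zero ψ hlead', hT.sign_lead q hq]
  -- between neighbours
  obtain ⟨l, ⟨hl, hlt⟩, hlmax⟩ := hLfin.exists_maximalFor id _ hL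
  obtain ⟨r, ⟨hr, hrt⟩, hrmin⟩ := hGfin.exists_minimalFor id _ hG
  obtain ⟨l', hml⟩ := m.left hl
  obtain ⟨r', hmr⟩ := m.left hr
  have hnone : ∀ c, l < c → c < r → c ∈ rootSet φ T d → c = t := fun c h1 h2 hc => by
    rcases lt_trichotomy c t with e | e | e
    · exact absurd (hlmax (j := c) ⟨hc, e⟩ h1.le) h1.not_ge
    · exact e
    · exact absurd (hrmin (j := c) ⟨hc, e⟩ h2.le) h2.not_ge
  have hnone1 : ∀ c, l < c → c < r → (q.map φ).eval c ≠ 0 := fun c h1 h2 =>
    notRoot c fun hc => ht (hnone c h1 h2 hc ▸ hc)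
  have hnone' : ∀ c, l' < c → c < r' → (q.map ψ).eval c ≠ 0 := fun c h1 h2 =>
    notRoot' c fun hc => by
      obtain ⟨z, hz⟩ := m.right hc
      have hzt := hnone z ((m.lt_iff hml hz).2 h1) ((m.lt_iff hz hmr).2 h2) (m.mem hz).1
      exact ht (hzt ▸ (m.mem hz).1)
  have hlu : l' < u := (h l l' hml).1.1 hlt
  have hur : u < r' := (h r r' hmr).2.1 hrt
  by_cases hl0 : (q.map φ).eval l = 0
  · have hr0 : (q.map φ).eval r ≠ 0 := fun hr0 => by
      obtain ⟨c, h1, h2, h3⟩ := rolle (q.map φ) (hlt.trans hrt) hl0 hr0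
      have hn : 0 < q.natDegree := Nat.pos_of_ne_zero fun e => by
        rw [eq_C_of_natDegree_eq_zero e, map_C, eval_C] at hl0
        rw [leadingCoeff, e] at hlead
        exact hlead hl0
      rw [derivative_map] at h3
      have hc : c ∈ rootSet φ T d := ⟨_, (hT.closed q hq hn).1,
        (natDegree_derivative_le q).trans (by omega), map_derivative_ne_zero φ hn hlead, h3⟩
      exact ht (hnone c h1 h2 hc ▸ hc)
    have hr0' : (q.map ψ).eval r' ≠ 0 := fun e => hr0 (sign_eq_zero_iff.1 (by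
      rw [m.sign_eq hmr q hq hqd, e, sign_zero]))
    rw [sign_eq_of_no_root _ hrt.le (notRoot t ht) hr0 fun c h1 h2 =>
        hnone1 c (hlt.trans h1) h2,
      sign_eq_of_no_root _ hur.le (notRoot' u hu) hr0' fun c h1 h2 =>
        hnone' c (hlu.trans h1) h2, m.sign_eq hmr q hq hqd]
  · have hl0' : (q.map ψ).eval l' ≠ 0 := fun e => hl0 (sign_eq_zero_iff.1 (by
      rw [m.sign_eq hml q hq hqd, e, sign_zero]))
    rw [← sign_eq_of_no_root _ hlt.le hl0 (notRoot t ht) fun c h1 h2 =>
        hnone1 c h1 (h2.trans hrt),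
      ← sign_eq_of_no_root _ hlu.le hl0' (notRoot' u hu) fun c h1 h2 =>
        hnone' c h1 (h2.trans hur), m.sign_eq hml q hq hqd]

/-- Corresponding points of the next level. -/
def Good (m : Match φ ψ T d) (t : R) (u : S) : Prop :=
  m.Rel t u ∧ ∀ p ∈ T, p.natDegree ≤ d + 1 →
    SignType.sign ((p.map φ).eval t) = SignType.sign ((p.map ψ).eval u)

theorem Good.symm {m : Match φ ψ T d} {t : R} {u : S} (h : m.Good t u) : m.symm.Good u t :=
  ⟨h.1.symm, fun p hp hd => (h.2 p hp hd).symm⟩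

/-- A member of true degree vanishing at a root. -/
theorem exists_vanishing (hT : Similar φ ψ T) {t : R} {e : ℕ} (ht : t ∈ rootSet φ T e) :
    ∃ q ∈ T, 0 < q.natDegree ∧ q.natDegree ≤ e ∧ φ q.leadingCoeff ≠ 0 ∧
      (q.map φ).eval t = 0 := by
  obtain ⟨q, hq, hd, h0, h⟩ := ht
  obtain ⟨q', hq', hd', hl, e1, -⟩ := hT.exists_lead_ne_zero hq h0
  refine ⟨q', hq', Nat.pos_of_ne_zero fun e => ?_, hd'.trans hd, hl, e1 ▸ h⟩
  rw [← e1, eq_C_of_natDegree_eq_zero e, map_C, eval_C] at h
  rw [leadingCoeff, e] at hl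
  exact hl h

/-- Through a common root the signs in the next degree agree as well. -/
theorem Rel.good {m : Match φ ψ T d} {t : R} {u : S} (h : m.Rel t u) (hT : Similar φ ψ T)
    {q : A[X]} (hq : q ∈ T) (hn : 0 < q.natDegree) (hd : q.natDegree ≤ d + 1)
    (hl : φ q.leadingCoeff ≠ 0) (ht : (q.map φ).eval t = 0) (hu : (q.map ψ).eval u = 0) :
    m.Good t u := by
  refine ⟨h, fun p hp hpd => ?_⟩
  rcases Nat.lt_or_ge p.natDegree (d + 1) with hlt | hge
  · exact h.sign_eq hT hp (by omega)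
  obtain ⟨k, hk, hlt, he⟩ := pseudoRem_spec p hn
  have hr : pseudoRem p q ∈ T := (hT.closed q hq hn).2.2 p hp (by omega)
  have e1 := congrArg (fun r : A[X] => SignType.sign ((r.map φ).eval t)) he
  have e2 := congrArg (fun r : A[X] => SignType.sign ((r.map ψ).eval u)) he
  simp only [Polynomial.map_mul, Polynomial.map_pow, map_C, Polynomial.map_add, eval_mul,
    eval_pow, eval_C, eval_add, ht, hu, mul_zero, zero_add] at e1 e2
  rw [sign_sq_cancel hl k, e1, h.sign_eq hT hr (by omega), ← e2, hT.sign_lead q hq,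
    ← sign_sq_cancel ((hT.lead_eq_zero_iff hq).not.1 hl) k]

theorem good_of_mem (hT : Similar φ ψ T) (m : Match φ ψ T d) {z : R} {w : S} (h : m.M z w) :
    m.Good z w := by
  obtain ⟨q, hq, hn, hd, hl, hz⟩ := exists_vanishing hT (m.mem h).1
  exact (m.rel_of_mem h).good hT hq hn (hd.trans d.le_succ) hl hz
    (sign_eq_zero_iff.1 (by rw [← m.sign_eq h q hq hd, hz, sign_zero]))

variable (m : Match φ ψ T d) {t : R} {u : S} {q : A[X]}

/-- The left end of a gap. -/
theorem exists_left_end (hT : Similar φ ψ T) (h : m.Rel t u) (hq : q ∈ T)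
    (hd : q.natDegree = d + 1) (hl : φ q.leadingCoeff ≠ 0) :
    ∃ a b, a < t ∧ b < u ∧ (∀ z ∈ rootSet φ T d, z < t → z ≤ a) ∧
      (∀ w ∈ rootSet ψ T d, w < u → w ≤ b) ∧
      SignType.sign ((q.map φ).eval a) = SignType.sign ((q.map ψ).eval b) := by
  set L := {z ∈ rootSet φ T d | z < t}
  have hLfin : L.Finite := (rootSet_finite φ T d).subset fun z hz => hz.1
  rcases L.eq_empty_or_nonempty with hL | hL
  · obtain ⟨B, hB⟩ := exists_sign_atBot (q.map φ)
    obtain ⟨B', hB'⟩ := exists_sign_atBot (q.map ψ)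
    obtain ⟨x, hx⟩ := exists_lt (min B t)
    obtain ⟨y, hy⟩ := exists_lt (min B' u)
    have hnone : ∀ z ∈ rootSet φ T d, ¬ z < t := fun z hz hlt => by
      have : z ∈ L := ⟨hz, hlt⟩
      simp [hL] at this
    have hl' : ψ q.leadingCoeff ≠ 0 := (hT.lead_eq_zero_iff hq).not.1 hl
    refine ⟨x, y, hx.trans_le (min_le_right _ _), hy.trans_le (min_le_right _ _),
      fun z hz hlt => absurd hlt (hnone z hz), fun w hw hlt => ?_, ?_⟩
    · obtain ⟨z, hz⟩ := m.right hw
      exact absurd ((h z w hz).1.2 hlt) (hnone z (m.mem hz).1)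
    rw [hB x (hx.trans_le (min_le_left _ _)), hB' y (hy.trans_le (min_le_left _ _)),
      natDegree_map_of_leadingCoeff_ne_zero φ hl, natDegree_map_of_leadingCoeff_ne_zero ψ hl',
      leadingCoeff_map_of_leadingCoeff_ne_zero φ hl,
      leadingCoeff_map_of_leadingCoeff_ne_zero ψ hl', hT.sign_lead q hq]
  · obtain ⟨a, ⟨ha, hat⟩, hmax⟩ := hLfin.exists_maximalFor id _ hL
    obtain ⟨b, hab⟩ := m.left ha
    refine ⟨a, b, hat, (h a b hab).1.1 hat, fun z hz hlt => not_lt.1 fun e =>
      e.not_ge (hmax (j := z) ⟨hz, hlt⟩ e.le), fun w hw hlt => ?_,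
      (good_of_mem hT m hab).2 q hq hd.le⟩
    obtain ⟨z, hz⟩ := m.right hw
    exact not_lt.1 fun e => ((m.lt_iff hab hz).2 e).not_ge
      (hmax (j := z) ⟨(m.mem hz).1, (h z w hz).1.2 hlt⟩ ((m.lt_iff hab hz).2 e).le)

/-- The right end of a gap. -/
theorem exists_right_end (hT : Similar φ ψ T) (h : m.Rel t u) (hq : q ∈ T)
    (hd : q.natDegree = d + 1) (hl : φ q.leadingCoeff ≠ 0) :
    ∃ a b, t < a ∧ u < b ∧ (∀ z ∈ rootSet φ T d, t < z → a ≤ z) ∧
      (∀ w ∈ rootSet ψ T d, u < w → b ≤ w) ∧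
      SignType.sign ((q.map φ).eval a) = SignType.sign ((q.map ψ).eval b) := by
  set G := {z ∈ rootSet φ T d | t < z}
  have hGfin : G.Finite := (rootSet_finite φ T d).subset fun z hz => hz.1
  rcases G.eq_empty_or_nonempty with hG | hG
  · obtain ⟨B, hB⟩ := exists_sign_atTop (q.map φ)
    obtain ⟨B', hB'⟩ := exists_sign_atTop (q.map ψ)
    obtain ⟨x, hx⟩ := exists_gt (max B t)
    obtain ⟨y, hy⟩ := exists_gt (max B' u)
    have hnone : ∀ z ∈ rootSet φ T d, ¬ t < z := fun z hz hlt => by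
      have : z ∈ G := ⟨hz, hlt⟩
      simp [hG] at this
    refine ⟨x, y, (le_max_right _ _).trans_lt hx, (le_max_right _ _).trans_lt hy,
      fun z hz hlt => absurd hlt (hnone z hz), fun w hw hlt => ?_, ?_⟩
    · obtain ⟨z, hz⟩ := m.right hw
      exact absurd ((h z w hz).2.2 hlt) (hnone z (m.mem hz).1)
    rw [hB x ((le_max_left _ _).trans_lt hx), hB' y ((le_max_left _ _).trans_lt hy),
      leadingCoeff_map_of_leadingCoeff_ne_zero φ hl,
      leadingCoeff_map_of_leadingCoeff_ne_zero ψ ((hT.lead_eq_zero_iff hq).not.1 hl),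
      hT.sign_lead q hq]
  · obtain ⟨a, ⟨ha, hat⟩, hmin⟩ := hGfin.exists_minimalFor id _ hG
    obtain ⟨b, hab⟩ := m.left ha
    refine ⟨a, b, hat, (h a b hab).2.1 hat, fun z hz hlt => not_lt.1 fun e =>
      e.not_ge (hmin (j := z) ⟨hz, hlt⟩ e.le), fun w hw hlt => ?_,
      (good_of_mem hT m hab).2 q hq hd.le⟩
    obtain ⟨z, hz⟩ := m.right hw
    exact not_lt.1 fun e => ((m.lt_iff hz hab).2 e).not_ge
      (hmin (j := z) ⟨(m.mem hz).1, (h z w hz).2.2 hlt⟩ ((m.lt_iff hz hab).2 e).le)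

theorem exists_good (hT : Similar φ ψ T) (ht : t ∈ rootSet φ T (d + 1)) : ∃ u, m.Good t u := by
  by_cases hold : t ∈ rootSet φ T d
  · obtain ⟨u, hu⟩ := m.left hold
    exact ⟨u, good_of_mem hT m hu⟩
  obtain ⟨q, hq, hn, hd, hl, hqt⟩ := exists_vanishing hT ht
  have hqd : q.natDegree = d + 1 := le_antisymm hd (Nat.succ_le_of_lt (not_le.1 fun hle =>
    hold ⟨q, hq, hle, fun e => hl (by
      have := congrArg (fun p : R[X] => p.coeff q.natDegree) e
      simpa using this), hqt⟩))
  obtain ⟨u₀, h₀⟩ := m.exists_rel t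
  obtain ⟨a, b, hat, hbu, hL, hL', hsa⟩ := m.exists_left_end hT h₀ hq hqd hl
  obtain ⟨a', b', hta, hub, hG, hG', hsa'⟩ := m.exists_right_end hT h₀ hq hqd hl
  have hder : derivative q ∈ T := (hT.closed q hq hn).1
  have hder0 := map_derivative_ne_zero φ hn hl
  have hnone : ∀ c, a < c → c < a' → ((derivative q).map φ).eval c ≠ 0 := fun c h1 h2 e => by
    have hc : c ∈ rootSet φ T d :=
      ⟨_, hder, (natDegree_derivative_le q).trans (by omega), hder0, e⟩
    rcases lt_trichotomy c t with h | h | h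
    · exact h1.not_ge (hL c hc h)
    · exact hold (h ▸ hc)
    · exact h2.not_ge (hG c hc h)
  have hd0 : (derivative (q.map φ)).eval t ≠ 0 := by
    rw [derivative_map]; exact hnone t hat hta
  have sa := sign_eval_of_root (q.map φ) hqt hd0 hat.ne' fun c h1 h2 => by
    rw [derivative_map]
    rw [min_eq_right hat.le] at h1
    rw [max_eq_left hat.le] at h2
    exact hnone c h1 (h2.trans hta)
  have sa' := sign_eval_of_root (q.map φ) hqt hd0 hta.ne fun c h1 h2 => by
    rw [derivative_map]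
    rw [min_eq_left hta.le] at h1
    rw [max_eq_right hta.le] at h2
    exact hnone c (hat.trans h1) h2
  rw [sign_neg (sub_neg.2 hat), hsa] at sa
  rw [sign_pos (sub_pos.2 hta), hsa'] at sa'
  have hneg : (q.map ψ).eval b * (q.map ψ).eval b' < 0 := mul_neg_of_sign_eq_neg
    (fun e => by
      rw [e, sign_zero, one_mul, eq_comm, sign_eq_zero_iff] at sa'
      exact hd0 sa')
    (by rw [sa, sa', neg_one_mul, one_mul])
  obtain ⟨u, hu1, hu2, hu⟩ := PolyIVT.exists_root _ b b' (hbu.trans hub) hneg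
  refine ⟨u, Match.Rel.good (fun z w hm => ?_) hT hq hn hd hl hqt hu⟩
  have hw := (m.mem hm).2
  have hw0 : w ≤ b ∨ b' ≤ w := by
    rcases lt_trichotomy w u₀ with e | e | e
    · exact Or.inl (hL' w hw e)
    · refine absurd ((h₀ z w hm).1) ?_
      have hz : z ≠ t := fun hz => hold (hz ▸ (m.mem hm).1)
      rcases hz.lt_or_gt with hz | hz
      · exact fun h => (h.1 hz).ne e
      · exact absurd ((h₀ z w hm).2.1 hz) e.not_gt
    · exact Or.inr (hG' w hw e)
  rcases hw0 with e | e
  · have h1 := e.trans_lt hu1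
    have h2 := e.trans_lt hbu
    exact ⟨iff_of_true ((h₀ z w hm).1.2 h2) h1,
      iff_of_false ((h₀ z w hm).1.2 h2).not_gt h1.not_gt⟩
  · have h1 := hu2.trans_le e
    have h2 := hub.trans_le e
    exact ⟨iff_of_false ((h₀ z w hm).2.2 h2).not_gt h1.not_gt,
      iff_of_true ((h₀ z w hm).2.2 h2) h1⟩

theorem Good.mem_right (hT : Similar φ ψ T) {m : Match φ ψ T d} {t : R} {u : S}
    (h : m.Good t u) (ht : t ∈ rootSet φ T (d + 1)) : u ∈ rootSet ψ T (d + 1) := by
  obtain ⟨q, hq, hd, h0, e⟩ := ht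
  refine ⟨q, hq, hd, hT.map_ne_zero hq h0, sign_eq_zero_iff.1 ?_⟩
  rw [← h.2 q hq hd, e, sign_zero]

theorem Good.unique (hT : Similar φ ψ T) {m : Match φ ψ T d} {t : R} {u u' : S}
    (h : m.Good t u) (h' : m.Good t u') (ht : t ∈ rootSet φ T (d + 1)) : u = u' := by
  by_contra hne
  wlog hlt : u < u' generalizing u u'
  · exact this h' h (Ne.symm hne) ((not_lt.1 hlt).lt_of_ne (Ne.symm hne))
  by_cases hold : t ∈ rootSet φ T d
  · exact hne (le_antisymm hlt.le (not_lt.1 fun e =>
      lt_irrefl t ((m.lt_iff (h.1.matched hold) (h'.1.matched hold)).2 e)))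
  obtain ⟨q, hq, hn, hd, hl, hqt⟩ := exists_vanishing hT ht
  have hu : ∀ {v}, m.Good t v → (q.map ψ).eval v = 0 := fun hv =>
    sign_eq_zero_iff.1 (by rw [← hv.2 q hq hd, hqt, sign_zero])
  obtain ⟨c, h1, h2, h3⟩ := rolle _ hlt (hu h) (hu h')
  rw [derivative_map] at h3
  obtain ⟨z, hz⟩ := m.right (w := c) ⟨_, (hT.closed q hq hn).1,
    (natDegree_derivative_le q).trans (by omega),
    map_derivative_ne_zero ψ hn ((hT.lead_eq_zero_iff hq).not.1 hl), h3⟩
  exact lt_asymm ((h.1 z c hz).2.2 h1) ((h'.1 z c hz).1.2 h2)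

theorem Good.lt (hT : Similar φ ψ T) {m : Match φ ψ T d} {t t' : R} {u u' : S}
    (h : m.Good t u) (h' : m.Good t' u') (ht : t ∈ rootSet φ T (d + 1))
    (ht' : t' ∈ rootSet φ T (d + 1)) (hlt : t < t') : u < u' := by
  by_contra hle
  have hne : u ≠ u' := fun e => hlt.ne
    (Good.unique hT.symm (e ▸ h.symm) h'.symm (h'.mem_right hT ht'))
  have hlt' : u' < u := (not_lt.1 hle).lt_of_ne (Ne.symm hne)
  have hnone : ∀ z ∈ rootSet φ T d, t ≤ z → z ≤ t' → False := fun z hz h1 h2 => by
    obtain ⟨w, hw⟩ := m.left hz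
    exact hlt'.not_ge ((not_lt.1 fun e => ((h.1 z w hw).1.2 e).not_ge h1).trans
      (not_lt.1 fun e => ((h'.1 z w hw).2.2 e).not_ge h2))
  obtain ⟨q, hq, hn, hd, hl, hqt⟩ := exists_vanishing hT ht
  have hu : (q.map ψ).eval u = 0 :=
    sign_eq_zero_iff.1 (by rw [← h.2 q hq hd, hqt, sign_zero])
  have hder : derivative q ∈ T := (hT.closed q hq hn).1
  have hdd : (derivative q).natDegree ≤ d := (natDegree_derivative_le q).trans (by omega)
  have h1 : ∀ c, t ≤ c → c ≤ t' → ((derivative q).map φ).eval c ≠ 0 := fun c c1 c2 e =>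
    hnone c ⟨_, hder, hdd, map_derivative_ne_zero φ hn hl, e⟩ c1 c2
  have h2 : ∀ c, u' ≤ c → c ≤ u → ((derivative q).map ψ).eval c ≠ 0 := fun c c1 c2 e => by
    obtain ⟨z, hz⟩ := m.right (w := c) ⟨_, hder, hdd,
      map_derivative_ne_zero ψ hn ((hT.lead_eq_zero_iff hq).not.1 hl), e⟩
    exact hlt.not_ge ((not_lt.1 fun e => ((h'.1 z c hz).1.1 e).not_ge c1).trans
      (not_lt.1 fun e => ((h.1 z c hz).2.1 e).not_ge c2))
  have s1 := sign_eval_of_root (q.map φ) hqt (by rw [derivative_map]; exact h1 t le_rfl hlt.le)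
    hlt.ne fun c c1 c2 => by
      rw [derivative_map]
      rw [min_eq_left hlt.le] at c1
      rw [max_eq_right hlt.le] at c2
      exact h1 c c1.le c2.le
  have s2 := sign_eval_of_root (q.map ψ) hu (by rw [derivative_map]; exact h2 u hlt'.le le_rfl)
    hlt'.ne' fun c c1 c2 => by
      rw [derivative_map]
      rw [min_eq_right hlt'.le] at c1
      rw [max_eq_left hlt'.le] at c2
      exact h2 c c1.le c2.le
  rw [derivative_map, sign_pos (sub_pos.2 hlt), one_mul, h'.2 q hq hd] at s1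
  rw [derivative_map, sign_neg (sub_neg.2 hlt'), neg_one_mul, s1,
    h.1.sign_eq hT hder hdd] at s2
  have hne0 : SignType.sign (((derivative q).map ψ).eval u) ≠ 0 :=
    sign_ne_zero.2 (h2 u hlt'.le le_rfl)
  revert s2 hne0
  generalize SignType.sign (((derivative q).map ψ).eval u) = s
  revert s
  decide

/-- The correspondence in the next degree. -/
def succ (hT : Similar φ ψ T) : Match φ ψ T (d + 1) where
  M z w := z ∈ rootSet φ T (d + 1) ∧ m.Good z w
  mem h := ⟨h.1, h.2.mem_right hT h.1⟩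
  left h := (m.exists_good hT h).imp fun _ hu => ⟨h, hu⟩
  right {w} h := by
    obtain ⟨z, hz⟩ := m.symm.exists_good hT.symm h
    exact ⟨z, hz.mem_right hT.symm h, hz.symm⟩
  sign_eq h := h.2.2
  lt_iff {z w z' w'} h h' := by
    refine ⟨h.2.lt hT h'.2 h.1 h'.1, fun hw => ?_⟩
    rcases lt_trichotomy z z' with e | e | e
    · exact e
    · exact absurd (h.2.unique hT (e ▸ h'.2) h.1) hw.ne
    · exact absurd (h'.2.lt hT h.2 h'.1 h.1 e) hw.not_gt

end Match

variable [PolyIVT R] [PolyIVT S] {φ : A →+* R} {ψ : A →+* S} {T : Finset A[X]}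

theorem nonempty_match (hT : Similar φ ψ T) : ∀ d, Nonempty (Match φ ψ T d)
  | 0 => by
    refine ⟨{ M := fun _ _ => False, mem := nofun, left := ?_, right := ?_, sign_eq := nofun,
              lt_iff := nofun }⟩
    · rintro z ⟨q, -, hd, h0, e⟩
      exact absurd e (eval_ne_zero_of_natDegree_zero φ hd h0 z)
    · rintro z ⟨q, -, hd, h0, e⟩
      exact absurd e (eval_ne_zero_of_natDegree_zero ψ hd h0 z)
  | d + 1 => ⟨(nonempty_match hT d).some.succ hT⟩

/-- **Sign determination**: a sign condition realised after one specialisation of the constants is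
realised after every other one with the same signs. -/
theorem exists_sign_point (P : Finset A[X]) (φ : A →+* R) (ψ : A →+* S)
    (h : ∀ c ∈ signConstants P, SignType.sign (φ c) = SignType.sign (ψ c)) (t : R) :
    ∃ u : S, ∀ p ∈ P, SignType.sign (p.eval₂ φ t) = SignType.sign (p.eval₂ ψ u) := by
  classical
  have hT : Similar φ ψ (signClosure P) := ⟨closedAbove_signClosure P, fun q hq => h _ (by
    simp only [signConstants, Finset.mem_image]
    exact ⟨q, hq, rfl⟩)⟩
  obtain ⟨m⟩ := nonempty_match hT ((signClosure P).sup natDegree)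
  obtain ⟨u, hu⟩ := m.exists_rel t
  refine ⟨u, fun p hp => ?_⟩
  rw [eval₂_eq_eval_map, eval₂_eq_eval_map]
  exact hu.sign_eq hT (subset_signClosure P hp) (Finset.le_sup (subset_signClosure P hp))

end Fermat.Agent.HilbertSeventeen
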